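/-
Program C (S55), package C3 (local fields in the `PadicAlgCl q` model), leaf L2c
`LeafKummerUnram` (helper53): a Kummer extension `F⟮α⟯`, `α ^ p = a`, `|a| = 1`, `p ≠ q` prime,
of an embedded local field `F ⊆ Ω = PadicAlgCl q` is unramified (no new norms).

Proof without Hensel's lemma and without residue fields: the conjugates of `α` over `F` are
pairwise distinct roots of `X ^ p - a`, their differences are units of `Ω` (because
`∏ (1 - ζ) = p` over the primitive `p`-th roots of unity and `|p| = 1`), so the Vandermonde matrix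
of the conjugates is invertible over the valuation ring of `Ω`; as the `F`-embeddings of `F⟮α⟯` in
`Ω` are isometries, the norm of `x = ∑ cᵢ αⁱ` is the maximum of the norms of the `cᵢ ∈ F`.
-/
import Mathlib
import Fermat.Agent.S55.H66.LocalSpec

set_option autoImplicit false

open IntermediateField Polynomial

namespace Fermat.Agent.S55.H53

variable (q : ℕ) [Fact q.Prime]

/-! ### Isometries -/

/-- Elements of `Ω` with the same minimal polynomial over `ℚ_q` have the same norm. -/
theorem norm_eq_of_minpoly_eq {x y : PadicAlgCl q} (h : minpoly ℚ_[q] x = minpoly ℚ_[q] y) :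
    ‖x‖ = ‖y‖ := by
  rw [← PadicAlgCl.spectralNorm_eq, ← PadicAlgCl.spectralNorm_eq, spectralNorm, spectralNorm, h]

/-- The `F`-embeddings of an extension `L ⊆ Ω` of `F` into `Ω` are isometries. -/
theorem norm_algHom {F : Type} [Field F] [Algebra ℚ_[q] F] [Algebra F (PadicAlgCl q)]
    [IsScalarTower ℚ_[q] F (PadicAlgCl q)] (L : IntermediateField F (PadicAlgCl q))
    (τ : L →ₐ[F] PadicAlgCl q) (x : L) : ‖τ x‖ = ‖(x : PadicAlgCl q)‖ := by
  apply norm_eq_of_minpoly_eq
  have h1 : minpoly ℚ_[q] (τ x) = minpoly ℚ_[q] x :=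
    minpoly.algHom_eq (τ.restrictScalars ℚ_[q]) τ.injective x
  have h2 : minpoly ℚ_[q] (x : PadicAlgCl q) = minpoly ℚ_[q] x :=
    minpoly.algHom_eq (L.val.restrictScalars ℚ_[q]) L.val.injective x
  rw [h1]
  exact h2.symm

/-! ### Roots of unity of order prime to `q` -/

/-- A nontrivial `p`-th root of unity `ζ ∈ Ω`, `p ≠ q` prime, satisfies `|1 - ζ| = 1`. -/
theorem norm_one_sub_of_pow_eq_one {p : ℕ} (hp : p.Prime) (hpq : p ≠ q) {ζ : PadicAlgCl q}
    (hζ : ζ ^ p = 1) (hζ1 : ζ ≠ 1) : ‖1 - ζ‖ = 1 := by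
  classical
  have : Fact p.Prime := ⟨hp⟩
  have hprim : IsPrimitiveRoot ζ p := by
    refine isPrimitiveRoot_of_mem_nthRootsFinset hp ?_ hζ1
    rw [mem_nthRootsFinset hp.pos]
    exact hζ
  have hcyc := cyclotomic_eq_prod_X_sub_primitiveRoots hprim
  have hev : ((p : ℕ) : PadicAlgCl q) = ∏ μ ∈ primitiveRoots p (PadicAlgCl q), (1 - μ) := by
    have h := congrArg (eval 1) hcyc
    rw [eval_one_cyclotomic_prime, eval_prod] at h
    simpa using h
  have hnp : ‖((p : ℕ) : PadicAlgCl q)‖ = 1 := by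
    have h : ((p : ℕ) : PadicAlgCl q) = algebraMap ℚ_[q] (PadicAlgCl q) ((p : ℕ) : ℚ_[q]) := by
      simp
    rw [h]
    have h2 := PadicAlgCl.norm_extends q ((p : ℕ) : ℚ_[q])
    rw [h2, Padic.norm_natCast_eq_one_iff]
    exact ((Nat.coprime_primes hp Fact.out).mpr hpq).symm
  have hle : ∀ μ ∈ primitiveRoots p (PadicAlgCl q), ‖1 - μ‖ ≤ 1 := by
    intro μ hμ
    have hμ1 : ‖μ‖ = 1 := by
      have h := ((mem_primitiveRoots hp.pos).1 hμ).pow_eq_one
      have h' : ‖μ‖ ^ p = 1 := by rw [← norm_pow, h, norm_one]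
      exact (pow_eq_one_iff_of_nonneg (norm_nonneg _) hp.ne_zero).1 h'
    calc ‖1 - μ‖ = ‖1 + -μ‖ := by rw [sub_eq_add_neg]
      _ ≤ max ‖(1 : PadicAlgCl q)‖ ‖-μ‖ := IsUltrametricDist.norm_add_le_max _ _
      _ = 1 := by rw [norm_one, norm_neg, hμ1, max_self]
  have hmem : ζ ∈ primitiveRoots p (PadicAlgCl q) := (mem_primitiveRoots hp.pos).2 hprim
  rw [← Finset.mul_prod_erase _ _ hmem] at hev
  have h1 : 1 = ‖1 - ζ‖ * ‖∏ μ ∈ (primitiveRoots p (PadicAlgCl q)).erase ζ, (1 - μ)‖ := by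
    rw [← norm_mul, ← hev, hnp]
  have h2 : ‖∏ μ ∈ (primitiveRoots p (PadicAlgCl q)).erase ζ, (1 - μ)‖ ≤ 1 := by
    rw [norm_prod]
    exact Finset.prod_le_one (fun _ _ => norm_nonneg _)
      (fun μ hμ => hle μ (Finset.mem_of_mem_erase hμ))
  have h3 := hle ζ hmem
  nlinarith [norm_nonneg (1 - ζ),
    norm_nonneg (∏ μ ∈ (primitiveRoots p (PadicAlgCl q)).erase ζ, (1 - μ))]

/-- A `p`-th root of an element of norm `1` has norm `1`. -/
theorem norm_eq_one_of_pow_eq {p : ℕ} (hp : p ≠ 0) {c β : PadicAlgCl q} (hc : ‖c‖ = 1)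
    (hβ : β ^ p = c) : ‖β‖ = 1 := by
  have h : ‖β‖ ^ p = 1 := by rw [← norm_pow, hβ, hc]
  exact (pow_eq_one_iff_of_nonneg (norm_nonneg _) hp).1 h

/-- Distinct `p`-th roots (`p ≠ q` prime) of an element of norm `1` differ by a unit. -/
theorem norm_sub_of_pow_eq {p : ℕ} (hp : p.Prime) (hpq : p ≠ q) {c β β' : PadicAlgCl q}
    (hc : ‖c‖ = 1) (hβ : β ^ p = c) (hβ' : β' ^ p = c) (hne : β ≠ β') : ‖β - β'‖ = 1 := by
  have hβn : ‖β‖ = 1 := norm_eq_one_of_pow_eq q hp.ne_zero hc hβ
  have hβ0 : β ≠ 0 := by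
    rintro rfl
    simp at hβn
  have hζ : (β' / β) ^ p = 1 := by
    rw [div_pow, hβ, hβ', div_self]
    rw [← hβ]
    exact pow_ne_zero _ hβ0
  have hζ1 : β' / β ≠ 1 := by
    intro h
    apply hne
    rw [div_eq_one_iff_eq hβ0] at h
    exact h.symm
  have h1 := norm_one_sub_of_pow_eq_one q hp hpq hζ hζ1
  have h2 : β - β' = β * (1 - β' / β) := by
    field_simp
  rw [h2, norm_mul, hβn, h1, one_mul]

/-! ### Matrices over the valuation ring of `Ω` -/

/-- The closed unit ball of `Ω`, as a subring. -/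
def unitBall : Subring (PadicAlgCl q) where
  carrier := {x | ‖x‖ ≤ 1}
  mul_mem' := by
    intro a b ha hb
    simp only [Set.mem_ofPred_eq, norm_mul] at ha hb ⊢
    exact mul_le_one₀ ha (norm_nonneg _) hb
  one_mem' := by simp
  add_mem' := by
    intro a b ha hb
    exact (IsUltrametricDist.norm_add_le_max _ _).trans (max_le ha hb)
  zero_mem' := by simp
  neg_mem' := by
    intro a ha
    simpa using ha

theorem mem_unitBall {x : PadicAlgCl q} : x ∈ unitBall q ↔ ‖x‖ ≤ 1 := Iff.rfl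

/-- The adjugate of a matrix with entries of norm `≤ 1` has entries of norm `≤ 1`. -/
theorem norm_adjugate_le {n : Type} [Fintype n] [DecidableEq n]
    (A : Matrix n n (PadicAlgCl q)) (hA : ∀ i j, ‖A i j‖ ≤ 1) (i j : n) :
    ‖A.adjugate i j‖ ≤ 1 := by
  let A' : Matrix n n (unitBall q) := fun i j => ⟨A i j, hA i j⟩
  have hmap : (unitBall q).subtype.mapMatrix A' = A := by
    ext i j
    rfl
  have h := RingHom.map_adjugate (unitBall q).subtype A'
  rw [hmap] at h
  rw [← h]
  exact (A'.adjugate i j).2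

/-! ### The leaf -/

/-- **C3 leaf L2c** (`Fermat.Agent.S55.H66.LeafKummerUnram`): a Kummer extension by a unit, of
prime degree different from the residue characteristic, is unramified. -/
theorem leafKummerUnram : Fermat.Agent.S55.H66.LeafKummerUnram q := by
  intro F _ _ _ _ _ p hp hpq a ha α hα x
  classical
  have hF0 : CharZero F := charZero_of_injective_algebraMap (algebraMap ℚ_[q] F).injective
  have hint : IsIntegral F α :=
    ⟨X ^ p - C a, monic_X_pow_sub_C a hp.ne_zero, by simp [hα]⟩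
  have hsep : IsSeparable F α := (minpoly.irreducible hint).separable
  have hsplit : ((minpoly F α).map (algebraMap F (PadicAlgCl q))).Splits := IsAlgClosed.splits _
  let pb := IntermediateField.adjoin.powerBasis hint
  have hdim : pb.dim = (minpoly F α).natDegree := IntermediateField.adjoin.powerBasis_dim hint
  have hgen : pb.gen = AdjoinSimple.gen F α := IntermediateField.adjoin.powerBasis_gen hint
  have hcard : Nat.card (F⟮α⟯ →ₐ[F] PadicAlgCl q) = pb.dim := by
    rw [hdim]
    exact IntermediateField.card_algHom_adjoin_integral F hint hsep hsplit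
  have hdpos : 0 < pb.dim := by
    rw [hdim]
    exact minpoly.natDegree_pos hint
  have : Finite (F⟮α⟯ →ₐ[F] PadicAlgCl q) := Nat.finite_of_card_ne_zero (by omega)
  let e : Fin pb.dim ≃ (F⟮α⟯ →ₐ[F] PadicAlgCl q) := (Finite.equivFinOfCardEq hcard).symm
  -- the coefficients of `x` and the conjugates of `α`
  let c : Fin pb.dim → PadicAlgCl q := fun i => algebraMap F (PadicAlgCl q) (pb.basis.repr x i)
  let β : Fin pb.dim → PadicAlgCl q := fun j => e j pb.gen
  have hna : ‖algebraMap F (PadicAlgCl q) a‖ = 1 := ha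
  -- expansion of the conjugates of `x`
  have hexp : ∀ τ : F⟮α⟯ →ₐ[F] PadicAlgCl q, τ x = ∑ i, c i * τ pb.gen ^ (i : ℕ) := by
    intro τ
    conv_lhs => rw [← pb.basis.sum_repr x]
    rw [map_sum]
    refine Finset.sum_congr rfl fun i _ => ?_
    rw [Algebra.smul_def, map_mul, AlgHom.commutes, pb.basis_eq_pow, map_pow]
  have hgenp : pb.gen ^ p = algebraMap F F⟮α⟯ a := by
    rw [hgen]
    apply Subtype.ext
    rw [IntermediateField.coe_pow, AdjoinSimple.coe_gen, hα]
    rfl
  have hβp : ∀ j, β j ^ p = algebraMap F (PadicAlgCl q) a := by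
    intro j
    show (e j pb.gen) ^ p = _
    rw [← map_pow, hgenp, AlgHom.commutes]
  have hβn : ∀ j, ‖β j‖ = 1 := fun j => norm_eq_one_of_pow_eq q hp.ne_zero hna (hβp j)
  have hβinj : Function.Injective β := by
    intro j j' h
    apply e.injective
    exact pb.algHom_ext h
  -- the Vandermonde matrix of the conjugates
  let V : Matrix (Fin pb.dim) (Fin pb.dim) (PadicAlgCl q) := Matrix.vandermonde β
  have hVent : ∀ j i, ‖V j i‖ ≤ 1 := by
    intro j i
    show ‖β j ^ (i : ℕ)‖ ≤ 1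
    rw [norm_pow, hβn, one_pow]
  have hVdet : ‖V.det‖ = 1 := by
    show ‖(Matrix.vandermonde β).det‖ = 1
    rw [Matrix.det_vandermonde, norm_prod]
    refine Finset.prod_eq_one fun i _ => ?_
    rw [norm_prod]
    refine Finset.prod_eq_one fun j hj => ?_
    refine norm_sub_of_pow_eq q hp hpq hna (hβp j) (hβp i) ?_
    intro h
    have := hβinj h
    rw [Finset.mem_Ioi] at hj
    exact (ne_of_gt hj) this
  have hVc : ∀ j, (V.mulVec c) j = e j x := by
    intro j
    rw [hexp (e j)]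
    show ∑ i, V j i * c i = _
    refine Finset.sum_congr rfl fun i _ => ?_
    show β j ^ (i : ℕ) * c i = c i * (e j pb.gen) ^ (i : ℕ)
    rw [mul_comm]
  have hadj : V.adjugate.mulVec (V.mulVec c) = V.det • c := by
    rw [Matrix.mulVec_mulVec, Matrix.adjugate_mul, Matrix.smul_mulVec, Matrix.one_mulVec]
  -- every coefficient is bounded by the norm of `x`
  have hcle : ∀ i, ‖c i‖ ≤ ‖(x : PadicAlgCl q)‖ := by
    intro i
    have h := congrFun hadj i
    have h' : V.det * c i = ∑ j, V.adjugate i j * e j x := by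
      rw [← smul_eq_mul, ← Pi.smul_apply, ← h]
      show ∑ j, V.adjugate i j * (V.mulVec c) j = _
      refine Finset.sum_congr rfl fun j _ => ?_
      rw [hVc j]
    have h2 : ‖V.det * c i‖ ≤ ‖(x : PadicAlgCl q)‖ := by
      rw [h']
      refine IsUltrametricDist.norm_sum_le_of_forall_le_of_nonneg (norm_nonneg _) fun j _ => ?_
      rw [norm_mul, norm_algHom q F⟮α⟯ (e j) x]
      exact mul_le_of_le_one_left (norm_nonneg _) (norm_adjugate_le q V hVent i j)
    rwa [norm_mul, hVdet, one_mul] at h2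
  -- the norm of `x` is bounded by the largest coefficient
  obtain ⟨i₀, -, hi₀⟩ := Finset.exists_max_image Finset.univ (fun i => ‖c i‖)
    ⟨⟨0, hdpos⟩, Finset.mem_univ _⟩
  have hαn : ‖α‖ = 1 := norm_eq_one_of_pow_eq q hp.ne_zero hna hα
  have hxle : ‖(x : PadicAlgCl q)‖ ≤ ‖c i₀‖ := by
    have h := hexp (F⟮α⟯.val)
    have hv : (F⟮α⟯.val) x = (x : PadicAlgCl q) := rfl
    have hg : (F⟮α⟯.val) pb.gen = α := by
      rw [hgen]
      exact AdjoinSimple.coe_gen F α
    rw [hv, hg] at h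
    rw [h]
    refine IsUltrametricDist.norm_sum_le_of_forall_le_of_nonneg (norm_nonneg _) fun i _ => ?_
    rw [norm_mul, norm_pow, hαn, one_pow, mul_one]
    exact hi₀ i (Finset.mem_univ _)
  exact ⟨pb.basis.repr x i₀, le_antisymm hxle (hcle i₀)⟩

end Fermat.Agent.S55.H53
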