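/-
Program C (S55), package C3 (local fields in the `PadicAlgCl q` model), leaf L2b
`LeafUnramUnique` (helper53): an unramified finite extension `L` of an embedded local field `F`
is `F(μ_{Q^n - 1})`, `n = [L : F]`, `Q = #k_F`.

Method (no Hensel, no completeness of `L`, no linear algebra over residue fields):
* roots of unity of order `m` with `|m| = 1` are pairwise at distance `1`;
* a root of unity of such order which is congruent to an element of `F` lies in `F` (its
  conjugates over `F` are congruent to it, because `F`-embeddings are isometries);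
* every unit of `F` is congruent to a `(Q_F - 1)`-th root of unity, and by counting all
  `(Q_F - 1)`-th roots of unity of `Ω` arise: `μ_{Q_F - 1}(Ω) ⊆ F`;
* if `L/F` is unramified, successive approximation with a uniformiser of `F` shows that `L` is in
  the closure of `F(μ_{Q_L - 1})`, which is closed (finite-dimensional over `ℚ_q`);
* `Q_L = Q_F ^ f`, and `f = [L : F]` by the degree of `unramExt` (`LeafUnram`).
-/
import Mathlib
import Fermat.Agent.S55.H66.LocalBridge
import Fermat.Agent.S55.H53.KummerUnram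

set_option autoImplicit false

open IntermediateField Polynomial
open Fermat.Agent.S55.H66

namespace Fermat.Agent.S55.H53

variable (q : ℕ) [Fact q.Prime]

/-! ### Roots of unity of order prime to `q` -/

/-- A nontrivial `m`-th root of unity, `|m| = 1`, is at distance `1` from `1`. -/
theorem norm_sub_one_of_pow_eq_one {m : ℕ} (hm : ‖((m : ℕ) : PadicAlgCl q)‖ = 1)
    {η : PadicAlgCl q} (hη : η ^ m = 1) (hη1 : η ≠ 1) : ‖η - 1‖ = 1 := by
  have hm0 : m ≠ 0 := by
    rintro rfl
    simp at hm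
  have hηn : ‖η‖ = 1 := norm_eq_one_of_pow_eq q hm0 norm_one hη
  have hG : ∀ k : ℕ, ‖∑ j ∈ Finset.range k, η ^ j‖ ≤ 1 := by
    intro k
    refine IsUltrametricDist.norm_sum_le_of_forall_le_of_nonneg zero_le_one fun j _ => ?_
    rw [norm_pow, hηn, one_pow]
  have hS : ∑ k ∈ Finset.range m, η ^ k = 0 := by
    have h := mul_geom_sum η m
    rw [hη, sub_self] at h
    rcases mul_eq_zero.1 h with h | h
    · exact absurd (sub_eq_zero.1 h) hη1
    · exact h
  have hkey : (η - 1) * ∑ k ∈ Finset.range m, ∑ j ∈ Finset.range k, η ^ j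
      = -((m : ℕ) : PadicAlgCl q) := by
    rw [Finset.mul_sum]
    have h1 : ∀ k ∈ Finset.range m, (η - 1) * ∑ j ∈ Finset.range k, η ^ j = η ^ k - 1 :=
      fun k _ => mul_geom_sum η k
    rw [Finset.sum_congr rfl h1, Finset.sum_sub_distrib, hS]
    simp
  have hle : ‖η - 1‖ ≤ 1 := by
    calc ‖η - 1‖ = ‖η + -1‖ := by rw [sub_eq_add_neg]
      _ ≤ max ‖η‖ ‖(-1 : PadicAlgCl q)‖ := IsUltrametricDist.norm_add_le_max _ _
      _ = 1 := by rw [norm_neg, norm_one, hηn, max_self]
  have hT : ‖∑ k ∈ Finset.range m, ∑ j ∈ Finset.range k, η ^ j‖ ≤ 1 :=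
    IsUltrametricDist.norm_sum_le_of_forall_le_of_nonneg zero_le_one fun k _ => hG k
  have h1 : ‖η - 1‖ * ‖∑ k ∈ Finset.range m, ∑ j ∈ Finset.range k, η ^ j‖ = 1 := by
    rw [← norm_mul, hkey, norm_neg, hm]
  nlinarith [norm_nonneg (η - 1),
    norm_nonneg (∑ k ∈ Finset.range m, ∑ j ∈ Finset.range k, η ^ j)]

/-- Distinct `m`-th roots of unity, `|m| = 1`, are at distance `1`. -/
theorem norm_sub_of_pow_eq_one {m : ℕ} (hm : ‖((m : ℕ) : PadicAlgCl q)‖ = 1)
    {ζ ζ' : PadicAlgCl q} (hζ : ζ ^ m = 1) (hζ' : ζ' ^ m = 1) (hne : ζ ≠ ζ') :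
    ‖ζ - ζ'‖ = 1 := by
  have hm0 : m ≠ 0 := by
    rintro rfl
    simp at hm
  have hn' : ‖ζ'‖ = 1 := norm_eq_one_of_pow_eq q hm0 norm_one hζ'
  have h0 : ζ' ≠ 0 := by
    rintro rfl
    simp at hn'
  have hη : (ζ / ζ') ^ m = 1 := by rw [div_pow, hζ, hζ', div_one]
  have hη1 : ζ / ζ' ≠ 1 := by
    intro h
    exact hne ((div_eq_one_iff_eq h0).1 h)
  have h1 := norm_sub_one_of_pow_eq_one q hm hη hη1
  have h2 : ζ - ζ' = ζ' * (ζ / ζ' - 1) := by
    field_simp
  rw [h2, norm_mul, hn', h1, one_mul]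

/-! ### A root of unity congruent to an element of `F` lies in `F` -/

/-- **Krasner for roots of unity.** If an `m`-th root of unity `ζ ∈ Ω`, `|m| = 1`, satisfies
`|ζ - u| < 1` for some `u ∈ F`, then `ζ ∈ F`. -/
theorem mem_range_of_norm_sub_lt {F : Type} [Field F] [Algebra ℚ_[q] F]
    [Algebra F (PadicAlgCl q)] [IsScalarTower ℚ_[q] F (PadicAlgCl q)]
    {m : ℕ} (hm : ‖((m : ℕ) : PadicAlgCl q)‖ = 1) {ζ : PadicAlgCl q} (hζ : ζ ^ m = 1)
    (u : F) (hu : ‖ζ - algebraMap F (PadicAlgCl q) u‖ < 1) :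
    ζ ∈ (algebraMap F (PadicAlgCl q)).range := by
  classical
  have hm0 : m ≠ 0 := by
    rintro rfl
    simp at hm
  have hF0 : CharZero F := charZero_of_injective_algebraMap (algebraMap ℚ_[q] F).injective
  have hint : IsIntegral F ζ :=
    ⟨X ^ m - C 1, monic_X_pow_sub_C 1 hm0, by simp [hζ]⟩
  have hsep : IsSeparable F ζ := (minpoly.irreducible hint).separable
  have hsplit : ((minpoly F ζ).map (algebraMap F (PadicAlgCl q))).Splits := IsAlgClosed.splits _
  have hcard := IntermediateField.card_algHom_adjoin_integral F hint hsep hsplit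
  let pb := IntermediateField.adjoin.powerBasis hint
  have hgen : pb.gen = AdjoinSimple.gen F ζ := IntermediateField.adjoin.powerBasis_gen hint
  -- every embedding fixes `ζ`
  have hfix : ∀ τ : F⟮ζ⟯ →ₐ[F] PadicAlgCl q, τ pb.gen = ζ := by
    intro τ
    by_contra hne
    have hτm : (τ pb.gen) ^ m = 1 := by
      rw [← map_pow, hgen]
      have h1 : (AdjoinSimple.gen F ζ) ^ m = 1 := by
        apply Subtype.ext
        rw [IntermediateField.coe_pow, AdjoinSimple.coe_gen, hζ]
        rfl
      rw [h1, map_one]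
    have hdist := norm_sub_of_pow_eq_one q hm hτm hζ hne
    have h2 : ‖τ (pb.gen - algebraMap F F⟮ζ⟯ u)‖
        = ‖((pb.gen - algebraMap F F⟮ζ⟯ u : F⟮ζ⟯) : PadicAlgCl q)‖ :=
      norm_algHom q F⟮ζ⟯ τ _
    have h3 : ((pb.gen - algebraMap F F⟮ζ⟯ u : F⟮ζ⟯) : PadicAlgCl q)
        = ζ - algebraMap F (PadicAlgCl q) u := by
      rw [hgen]
      rfl
    rw [map_sub, AlgHom.commutes, h3] at h2
    have h4 : ‖τ pb.gen - ζ‖ ≤ max ‖τ pb.gen - algebraMap F (PadicAlgCl q) u‖
        ‖algebraMap F (PadicAlgCl q) u - ζ‖ := by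
      have := IsUltrametricDist.norm_add_le_max (τ pb.gen - algebraMap F (PadicAlgCl q) u)
        (algebraMap F (PadicAlgCl q) u - ζ)
      simpa using this
    rw [h2, norm_sub_rev (algebraMap F (PadicAlgCl q) u) ζ, max_self, hdist] at h4
    exact absurd hu (not_lt.2 h4)
  have hsub : Subsingleton (F⟮ζ⟯ →ₐ[F] PadicAlgCl q) :=
    ⟨fun τ τ' => pb.algHom_ext ((hfix τ).trans (hfix τ').symm)⟩
  have hdeg : (minpoly F ζ).natDegree = 1 := by
    have h1 : Nat.card (F⟮ζ⟯ →ₐ[F] PadicAlgCl q) ≤ 1 := Finite.card_le_one_iff_subsingleton.2 hsub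
    have h2 := minpoly.natDegree_pos hint
    omega
  exact minpoly.natDegree_eq_one_iff.1 hdeg

/-! ### The valuation ring of an embedded local field -/

section IntRing

variable (F : Type) [Field F] [Algebra F (PadicAlgCl q)]

theorem nrm_mul (x y : F) : nrm q (x * y) = nrm q x * nrm q y := by
  simp only [nrm, map_mul, norm_mul]

theorem nrm_one : nrm q (1 : F) = 1 := by
  simp only [nrm, map_one, norm_one]

theorem nrm_intRing_le_one (x : intRing q F) : nrm q (x : F) ≤ 1 :=
  (mem_intRing_iff q F x).1 x.2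

theorem isUnit_intRing_iff (x : intRing q F) : IsUnit x ↔ nrm q (x : F) = 1 := by
  constructor
  · intro h
    obtain ⟨y, hy⟩ := isUnit_iff_exists_inv.1 h
    have hxy : (x : F) * (y : F) = 1 := by
      have h := congrArg (fun z : intRing q F => (z : F)) hy
      simpa using h
    have h1 : nrm q (x : F) * nrm q (y : F) = 1 := by
      rw [← nrm_mul, hxy, nrm_one]
    have hx := nrm_intRing_le_one q F x
    have hy' := nrm_intRing_le_one q F y
    have hx0 : 0 ≤ nrm q (x : F) := norm_nonneg _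
    have hy0 : 0 ≤ nrm q (y : F) := norm_nonneg _
    nlinarith
  · intro h
    have hx0 : (x : F) ≠ 0 := by
      intro h0
      rw [h0] at h
      simp [nrm] at h
    have hinv : (x : F)⁻¹ ∈ intRing q F := by
      rw [mem_intRing_iff]
      have h1 : nrm q (x : F) * nrm q ((x : F)⁻¹) = 1 := by
        rw [← nrm_mul, mul_inv_cancel₀ hx0, nrm_one]
      rw [h, one_mul] at h1
      exact h1.le
    refine isUnit_iff_exists_inv.2 ⟨⟨(x : F)⁻¹, hinv⟩, ?_⟩
    apply Subtype.ext
    exact mul_inv_cancel₀ hx0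

theorem residue_eq_zero_iff (x : intRing q F) :
    IsLocalRing.residue (intRing q F) x = 0 ↔ nrm q (x : F) < 1 := by
  rw [IsLocalRing.residue_eq_zero_iff, IsLocalRing.mem_maximalIdeal, mem_nonunits_iff,
    isUnit_intRing_iff]
  have h := nrm_intRing_le_one q F x
  constructor
  · intro h1
    exact lt_of_le_of_ne h h1
  · intro h1
    exact ne_of_lt h1

end IntRing

/-! ### Units are congruent to roots of unity, and these lie in the field -/

section Roots

variable (F : Type) [Field F] [Algebra ℚ_[q] F] [Algebra F (PadicAlgCl q)]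
  [IsScalarTower ℚ_[q] F (PadicAlgCl q)] [FiniteDimensional ℚ_[q] F]

theorem two_le_resCard : 2 ≤ resCard q F := by
  have : Finite (IsLocalRing.ResidueField (intRing q F)) := leafResFinite q F
  exact Finite.one_lt_card

/-- `Q_F - 1` is a unit of `Ω`. -/
theorem norm_resCard_sub_one : ‖((resCard q F - 1 : ℕ) : PadicAlgCl q)‖ = 1 := by
  classical
  have hfin : Finite (IsLocalRing.ResidueField (intRing q F)) := leafResFinite q F
  have : Fintype (IsLocalRing.ResidueField (intRing q F)) := Fintype.ofFinite _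
  have h2 := two_le_resCard q F
  have h0 : ((resCard q F : ℕ) : IsLocalRing.ResidueField (intRing q F)) = 0 := by
    rw [resCard, Nat.card_eq_fintype_card]
    exact Nat.cast_card_eq_zero _
  have h1 : IsLocalRing.residue (intRing q F) ((resCard q F : ℕ) : intRing q F) = 0 := by
    rw [map_natCast]
    exact h0
  have h3 := (residue_eq_zero_iff q F _).1 h1
  have h4 : nrm q ((((resCard q F : ℕ) : intRing q F) : F)) = ‖((resCard q F : ℕ) : PadicAlgCl q)‖ := by
    simp [nrm]
  rw [h4] at h3
  have h5 : ((resCard q F - 1 : ℕ) : PadicAlgCl q) = ((resCard q F : ℕ) : PadicAlgCl q) + -1 := by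
    rw [Nat.cast_sub (by omega)]
    simp [sub_eq_add_neg]
  rw [h5]
  have h6 : ‖((resCard q F : ℕ) : PadicAlgCl q)‖ ≠ ‖(-1 : PadicAlgCl q)‖ := by
    rw [norm_neg, norm_one]
    exact ne_of_lt h3
  rw [IsUltrametricDist.norm_add_eq_max_of_norm_ne_norm h6, norm_neg, norm_one]
  exact max_eq_right h3.le

/-- Every unit of `F` is congruent to a `(Q_F - 1)`-th root of unity of `Ω`. -/
theorem exists_root_near (u : F) (hu : nrm q u = 1) :
    ∃ ζ : PadicAlgCl q, ζ ^ (resCard q F - 1) = 1 ∧
      ‖algebraMap F (PadicAlgCl q) u - ζ‖ < 1 := by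
  classical
  have hfin : Finite (IsLocalRing.ResidueField (intRing q F)) := leafResFinite q F
  have h2 := two_le_resCard q F
  set m := resCard q F - 1 with hm
  have hm0 : m ≠ 0 := by omega
  -- `u ^ m - 1` is a non-unit
  let u' : intRing q F := ⟨u, (mem_intRing_iff q F u).2 hu.le⟩
  have hu' : IsUnit u' := (isUnit_intRing_iff q F u').2 hu
  have hres : IsLocalRing.residue (intRing q F) (u' ^ m - 1) = 0 := by
    have hne : IsLocalRing.residue (intRing q F) u' ≠ 0 := by
      intro h
      have := (residue_eq_zero_iff q F u').1 h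
      exact absurd hu (ne_of_lt this)
    have hpow : (Units.mk0 _ hne) ^ Nat.card (IsLocalRing.ResidueField (intRing q F))ˣ = 1 :=
      pow_card_eq_one'
    rw [Nat.card_units] at hpow
    have hpow' := congrArg Units.val hpow
    rw [Units.val_pow_eq_pow_val, Units.val_mk0, Units.val_one] at hpow'
    rw [map_sub, map_pow, map_one]
    exact sub_eq_zero.2 hpow'
  have hlt := (residue_eq_zero_iff q F _).1 hres
  have hlt' : ‖(algebraMap F (PadicAlgCl q) u) ^ m - 1‖ < 1 := by
    have h : nrm q (((u' ^ m - 1 : intRing q F)) : F)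
        = ‖(algebraMap F (PadicAlgCl q) u) ^ m - 1‖ := by
      simp [nrm, u']
    rwa [h] at hlt
  -- factorisation of `X ^ m - 1` over `Ω`
  set U := algebraMap F (PadicAlgCl q) u with hU
  have hUn : ‖U‖ = 1 := hu
  have hsplit : (X ^ m - C (1 : PadicAlgCl q)).Splits := IsAlgClosed.splits _
  have hmonic : (X ^ m - C (1 : PadicAlgCl q)).Monic := monic_X_pow_sub_C 1 hm0
  have hev := hsplit.eval_eq_prod_roots U
  rw [hmonic.leadingCoeff, one_mul] at hev
  have hev' : U ^ m - 1 = (((X ^ m - C (1 : PadicAlgCl q)).roots).map (U - ·)).prod := by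
    rw [← hev]
    simp
  by_contra hcon
  push Not at hcon
  have hall : ∀ a ∈ (X ^ m - C (1 : PadicAlgCl q)).roots, ‖U - a‖ = 1 := by
    intro a ha
    have ha1 : a ^ m = 1 := by
      have := (mem_roots (hmonic.ne_zero)).1 ha
      simpa [IsRoot, sub_eq_zero] using this
    have han : ‖a‖ = 1 := norm_eq_one_of_pow_eq q hm0 norm_one ha1
    have hle : ‖U - a‖ ≤ 1 := by
      calc ‖U - a‖ = ‖U + -a‖ := by rw [sub_eq_add_neg]
        _ ≤ max ‖U‖ ‖-a‖ := IsUltrametricDist.norm_add_le_max _ _
        _ = 1 := by rw [norm_neg, han, hUn, max_self]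
    exact le_antisymm hle (hcon a ha1)
  have hprod : ‖(((X ^ m - C (1 : PadicAlgCl q)).roots).map (U - ·)).prod‖ = 1 := by
    have h := map_multiset_prod (normHom : PadicAlgCl q →*₀ ℝ)
      (((X ^ m - C (1 : PadicAlgCl q)).roots).map (U - ·))
    have h' : ‖(((X ^ m - C (1 : PadicAlgCl q)).roots).map (U - ·)).prod‖
        = ((((X ^ m - C (1 : PadicAlgCl q)).roots).map (U - ·)).map normHom).prod := h
    rw [h', Multiset.map_map]
    refine Multiset.prod_eq_one fun x hx => ?_
    obtain ⟨a, ha, rfl⟩ := Multiset.mem_map.1 hx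
    exact hall a ha
  rw [hev', hprod] at hlt'
  exact lt_irrefl _ hlt'

/-- All `(Q_F - 1)`-th roots of unity of `Ω` lie in `F`. -/
theorem root_mem_range {ζ : PadicAlgCl q} (hζ : ζ ^ (resCard q F - 1) = 1) :
    ζ ∈ (algebraMap F (PadicAlgCl q)).range := by
  classical
  have hfin : Finite (IsLocalRing.ResidueField (intRing q F)) := leafResFinite q F
  have h2 := two_le_resCard q F
  set m := resCard q F - 1 with hm
  have hm0 : 0 < m := by omega
  have hmn := norm_resCard_sub_one q F
  rw [← hm] at hmn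
  -- a map from the units of the residue field to the `m`-th roots of unity
  have hex : ∀ a : (IsLocalRing.ResidueField (intRing q F))ˣ, ∃ ζ' : PadicAlgCl q,
      ζ' ^ m = 1 ∧ ∃ x : intRing q F, IsLocalRing.residue (intRing q F) x = (a : _) ∧
        ‖algebraMap F (PadicAlgCl q) (x : F) - ζ'‖ < 1 := by
    intro a
    obtain ⟨x, hx⟩ := IsLocalRing.residue_surjective (a : IsLocalRing.ResidueField (intRing q F))
    have hxn : nrm q (x : F) = 1 := by
      have hne : IsLocalRing.residue (intRing q F) x ≠ 0 := by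
        rw [hx]
        exact a.ne_zero
      have h1 := nrm_intRing_le_one q F x
      by_contra h
      exact hne ((residue_eq_zero_iff q F x).2 (lt_of_le_of_ne h1 h))
    obtain ⟨ζ', h1, h2⟩ := exists_root_near q F (x : F) hxn
    exact ⟨ζ', h1, x, hx, h2⟩
  choose Z hZ1 Xr hX1 hX2 using hex
  have hZinj : Function.Injective Z := by
    intro a b hab
    have h1 : ‖algebraMap F (PadicAlgCl q) ((Xr a : F) - (Xr b : F))‖ < 1 := by
      have h := IsUltrametricDist.norm_add_le_max
        (algebraMap F (PadicAlgCl q) (Xr a : F) - Z a) (Z b - algebraMap F (PadicAlgCl q) (Xr b : F))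
      rw [map_sub]
      have h' : algebraMap F (PadicAlgCl q) (Xr a : F) - algebraMap F (PadicAlgCl q) (Xr b : F)
          = (algebraMap F (PadicAlgCl q) (Xr a : F) - Z a)
            + (Z b - algebraMap F (PadicAlgCl q) (Xr b : F)) := by
        rw [hab]
        ring
      rw [h']
      refine lt_of_le_of_lt h (max_lt (hX2 a) ?_)
      rw [norm_sub_rev]
      exact hX2 b
    have h2 : IsLocalRing.residue (intRing q F) (Xr a - Xr b) = 0 :=
      (residue_eq_zero_iff q F _).2 h1
    rw [map_sub, hX1, hX1, sub_eq_zero] at h2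
    exact Units.ext h2
  let S : Finset (PadicAlgCl q) := nthRootsFinset m (1 : PadicAlgCl q)
  let Φ : (IsLocalRing.ResidueField (intRing q F))ˣ → S :=
    fun a => ⟨Z a, (mem_nthRootsFinset hm0 _).2 (hZ1 a)⟩
  have hΦinj : Function.Injective Φ := by
    intro a b hab
    exact hZinj (congrArg Subtype.val hab)
  have hcardS : Nat.card S ≤ Nat.card (IsLocalRing.ResidueField (intRing q F))ˣ := by
    rw [Nat.card_units, Nat.card_eq_fintype_card, Fintype.card_coe]
    show S.card ≤ m
    exact (Multiset.toFinset_card_le _).trans (card_nthRoots m 1)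
  have hbij := hΦinj.bijective_of_nat_card_le hcardS
  obtain ⟨a, ha⟩ := hbij.2 ⟨ζ, (mem_nthRootsFinset hm0 _).2 hζ⟩
  have haζ : Z a = ζ := congrArg Subtype.val ha
  refine mem_range_of_norm_sub_lt q hmn hζ (Xr a : F) ?_
  rw [← haζ, norm_sub_rev]
  exact hX2 a

end Roots

/-! ### An unramified extension is generated by roots of unity -/

section Unram

variable (F : Type) [Field F] [Algebra ℚ_[q] F] [Algebra F (PadicAlgCl q)]
  [IsScalarTower ℚ_[q] F (PadicAlgCl q)] [FiniteDimensional ℚ_[q] F]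
variable (L : IntermediateField F (PadicAlgCl q)) [FiniteDimensional F L]

/-- The `(Q_L - 1)`-th roots of unity of `Ω` lie in `L`. -/
theorem adjoin_roots_le :
    IntermediateField.adjoin F {ζ : PadicAlgCl q | ζ ^ (resCard q L - 1) = 1} ≤ L := by
  rw [adjoin_le_iff]
  intro ζ hζ
  obtain ⟨x, hx⟩ := root_mem_range q L hζ
  rw [← hx]
  exact x.2

/-- An intermediate field contained in `L` is closed in `Ω`. -/
theorem isClosed_of_le (E : IntermediateField F (PadicAlgCl q)) (hEL : E ≤ L) :
    IsClosed (E : Set (PadicAlgCl q)) := by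
  have hfd : FiniteDimensional ℚ_[q] L := instFinUp q F L
  let ψ : L →ₗ[ℚ_[q]] PadicAlgCl q := (L.val.toLinearMap).restrictScalars ℚ_[q]
  let S₀ : Submodule ℚ_[q] L :=
    { carrier := {x : L | (x : PadicAlgCl q) ∈ E}
      add_mem' := fun {a b} ha hb => E.add_mem ha hb
      zero_mem' := E.zero_mem
      smul_mem' := fun c x hx => by
        have h : ((c • x : L) : PadicAlgCl q)
            = algebraMap F (PadicAlgCl q) (algebraMap ℚ_[q] F c) * (x : PadicAlgCl q) := by
          rw [← IsScalarTower.algebraMap_apply ℚ_[q] F (PadicAlgCl q), ← Algebra.smul_def]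
          rfl
        show ((c • x : L) : PadicAlgCl q) ∈ E
        rw [h]
        exact E.mul_mem (E.algebraMap_mem _) hx }
  let S : Submodule ℚ_[q] (PadicAlgCl q) := S₀.map ψ
  have hS : (S : Set (PadicAlgCl q)) = (E : Set (PadicAlgCl q)) := by
    ext x
    constructor
    · rintro ⟨y, hy, rfl⟩
      exact hy
    · intro hx
      exact ⟨⟨x, hEL hx⟩, hx, rfl⟩
  rw [← hS]
  exact S.closed_of_finiteDimensional

/-- **Successive approximation**: an unramified extension `L/F` is generated over `F` by the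
`(Q_L - 1)`-th roots of unity. -/
theorem le_adjoin_roots (hun : IsUnram q F L) :
    L ≤ IntermediateField.adjoin F {ζ : PadicAlgCl q | ζ ^ (resCard q L - 1) = 1} := by
  classical
  set E : IntermediateField F (PadicAlgCl q) :=
    IntermediateField.adjoin F {ζ : PadicAlgCl q | ζ ^ (resCard q L - 1) = 1} with hE
  have hEL : E ≤ L := adjoin_roots_le q F L
  obtain ⟨π, hπ0, hπ1, hπ⟩ := leafUnif q F
  set r := nrm q π with hr
  have hπΩ : algebraMap F (PadicAlgCl q) π ≠ 0 := by
    rw [Ne, map_eq_zero]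
    exact hπ0
  have hr0 : 0 < r := norm_pos_iff.2 hπΩ
  have hrdef : ‖algebraMap F (PadicAlgCl q) π‖ = r := rfl
  -- elements of `L` of norm `< 1` have norm `≤ |π|`
  have key1 : ∀ z : L, ‖(z : PadicAlgCl q)‖ < 1 → ‖(z : PadicAlgCl q)‖ ≤ r := by
    intro z hz
    by_cases hz0 : (z : PadicAlgCl q) = 0
    · rw [hz0, norm_zero]
      exact hr0.le
    obtain ⟨y, hy⟩ := hun z
    have hy' : ‖(z : PadicAlgCl q)‖ = ‖algebraMap F (PadicAlgCl q) y‖ := hy
    have hy0 : y ≠ 0 := by
      rintro rfl
      rw [map_zero, norm_zero, norm_eq_zero] at hy'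
      exact hz0 hy'
    obtain ⟨n, hn⟩ := hπ y hy0
    have hn' : ‖algebraMap F (PadicAlgCl q) y‖ = r ^ n := hn
    rw [hy', hn'] at hz ⊢
    have hn1 : 1 ≤ n := by
      by_contra h
      have h0 : n ≤ 0 := by omega
      have := one_le_zpow_of_nonpos₀ hr0 hπ1.le h0
      linarith
    calc r ^ n ≤ r ^ (1 : ℤ) := zpow_le_zpow_right_of_le_one₀ hr0 hπ1.le hn1
      _ = r := zpow_one r
  -- successive approximation
  have approx : ∀ k : ℕ, ∀ x : L, ‖(x : PadicAlgCl q)‖ ≤ 1 →
      ∃ v ∈ E, ‖(x : PadicAlgCl q) - v‖ ≤ r ^ k := by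
    intro k
    induction k with
    | zero =>
      intro x hx
      exact ⟨0, E.zero_mem, by simpa using hx⟩
    | succ k ih =>
      intro x hx
      obtain ⟨v₀, hv₀E, hv₀⟩ : ∃ v₀ ∈ E, ‖(x : PadicAlgCl q) - v₀‖ < 1 := by
        by_cases hx1 : ‖(x : PadicAlgCl q)‖ < 1
        · exact ⟨0, E.zero_mem, by simpa using hx1⟩
        · have hx1' : nrm q x = 1 := le_antisymm hx (not_lt.1 hx1)
          obtain ⟨ζ, hζ, hζ2⟩ := exists_root_near q L x hx1'
          exact ⟨ζ, subset_adjoin F _ hζ, hζ2⟩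
      have hzL : (x : PadicAlgCl q) - v₀ ∈ L := L.sub_mem x.2 (hEL hv₀E)
      have hz' := key1 ⟨_, hzL⟩ hv₀
      have hx₁L : ((x : PadicAlgCl q) - v₀) / algebraMap F (PadicAlgCl q) π ∈ L :=
        L.div_mem hzL (L.algebraMap_mem π)
      have hx₁ : ‖((x : PadicAlgCl q) - v₀) / algebraMap F (PadicAlgCl q) π‖ ≤ 1 := by
        rw [norm_div, hrdef]
        exact (div_le_one hr0).2 hz'
      obtain ⟨v₁, hv₁E, hv₁⟩ := ih ⟨_, hx₁L⟩ hx₁
      refine ⟨v₀ + algebraMap F (PadicAlgCl q) π * v₁,
        E.add_mem hv₀E (E.mul_mem (E.algebraMap_mem π) hv₁E), ?_⟩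
      have hxeq : (x : PadicAlgCl q) - (v₀ + algebraMap F (PadicAlgCl q) π * v₁)
          = algebraMap F (PadicAlgCl q) π *
            (((x : PadicAlgCl q) - v₀) / algebraMap F (PadicAlgCl q) π - v₁) := by
        field_simp
        ring
      rw [hxeq, norm_mul, hrdef, pow_succ']
      exact mul_le_mul_of_nonneg_left hv₁ hr0.le
  have hclosed : IsClosed (E : Set (PadicAlgCl q)) := isClosed_of_le q F L E hEL
  have main : ∀ y : L, ‖(y : PadicAlgCl q)‖ ≤ 1 → (y : PadicAlgCl q) ∈ E := by
    intro y hy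
    have hcl : (y : PadicAlgCl q) ∈ closure (E : Set (PadicAlgCl q)) := by
      rw [Metric.mem_closure_iff]
      intro ε hε
      obtain ⟨k, hk⟩ := exists_pow_lt_of_lt_one hε hπ1
      obtain ⟨v, hvE, hv⟩ := approx k y hy
      exact ⟨v, hvE, by rw [dist_eq_norm]; exact lt_of_le_of_lt hv hk⟩
    rwa [hclosed.closure_eq] at hcl
  intro x hxL
  by_cases hx1 : ‖x‖ ≤ 1
  · exact main ⟨x, hxL⟩ hx1
  · have hx1' : 1 < ‖x‖ := not_le.1 hx1
    have hinv : x⁻¹ ∈ E := by
      refine main ⟨x⁻¹, L.inv_mem hxL⟩ ?_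
      show ‖x⁻¹‖ ≤ 1
      rw [norm_inv]
      exact inv_le_one_of_one_le₀ hx1'.le
    have h := E.inv_mem hinv
    rwa [inv_inv] at h

/-- The residue field of `L` has `Q_F ^ f` elements for some `f ≥ 1`. -/
theorem exists_resCard_eq_pow : ∃ f : ℕ, 0 < f ∧ resCard q L = resCard q F ^ f := by
  classical
  have hfinF : Finite (IsLocalRing.ResidueField (intRing q F)) := leafResFinite q F
  have hfinL : Finite (IsLocalRing.ResidueField (intRing q L)) := leafResFinite q L
  let φ : intRing q F →+* intRing q L :=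
    { toFun := fun x => ⟨algebraMap F L x,
        (mem_intRing_iff q L _).2 (nrm_intRing_le_one q F x)⟩
      map_one' := Subtype.ext (map_one _)
      map_mul' := fun x y => Subtype.ext (map_mul _ _ _)
      map_zero' := Subtype.ext (map_zero _)
      map_add' := fun x y => Subtype.ext (map_add _ _ _) }
  have hloc : IsLocalHom φ :=
    ⟨fun x hx => (isUnit_intRing_iff q F x).2 ((isUnit_intRing_iff q L (φ x)).1 hx)⟩
  let _ : Algebra (IsLocalRing.ResidueField (intRing q F))
      (IsLocalRing.ResidueField (intRing q L)) := (IsLocalRing.ResidueField.map φ).toAlgebra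
  exact ⟨Module.finrank (IsLocalRing.ResidueField (intRing q F))
    (IsLocalRing.ResidueField (intRing q L)), Module.finrank_pos, Module.natCard_eq_pow_finrank⟩

end Unram

/-! ### The leaf -/

/-- **C3 leaf L2b** from the degree of `unramExt` (`LeafUnram`). -/
theorem leafUnramUnique_of (hU : LeafUnram q) : LeafUnramUnique q := by
  intro F _ _ _ _ _ L _ hun
  obtain ⟨f, hf, hcard⟩ := exists_resCard_eq_pow q F L
  have hL : L = unramExt q F f := by
    rw [unramExt, ← hcard]
    exact le_antisymm (le_adjoin_roots q F L hun) (adjoin_roots_le q F L)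
  obtain ⟨-, hdeg, -⟩ := hU F f hf
  have hn : Module.finrank F L = f := by
    rw [← hdeg]
    exact congrArg (fun M : IntermediateField F (PadicAlgCl q) => Module.finrank F M) hL
  rw [hn]
  exact hL

end Fermat.Agent.S55.H53
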