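/-
Program C (S55), bridge (LOC-1), generic part (helper53).  Mathlib only.

* `conj_homotopy` : for a 2-cocycle `z` of `A : Rep k G` and `g : G`,
  `z (a, b) - g • z (g⁻¹ a g, g⁻¹ b g) = (d u) (a, b)` with `u a = z (a, g) - z (g, g⁻¹ a g)`.
* `mackey_coeff` : if the pull-back of a 2-cocycle `z : G × G → k[G ⧸ U]` along `f : H' →* G` is the
  coboundary of `w`, then for every `g : G` the function
  `(s, t) ↦ coeff_[1] z (g⁻¹ f(s) g, g⁻¹ f(t) g)` is, on `{s | g⁻¹ f(s) g ∈ U}`, the coboundary of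
  `v s = coeff_[g] (w s - z (f s, g) + z (g, g⁻¹ f(s) g))`  (`mackeyCochain`).
* `mackeyCochain_mul_right` : level-constancy of `v`.
-/
import Mathlib

set_option autoImplicit false

open CategoryTheory groupCohomology

noncomputable section

namespace Fermat.Agent.S55.H53

universe u

section Conj

variable {k G : Type u} [CommRing k] [Group G] (A : Rep k G)

/-- The 1-cochain of the conjugation homotopy. -/
def conjCochain (z : G × G → A) (g : G) (a : G) : A :=
  z (a, g) - z (g, g⁻¹ * a * g)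

/-- **Conjugation acts trivially on `H²`, cocycle form.** -/
theorem conj_homotopy (z : G × G → A) (hz : z ∈ cocycles₂ A) (g a b : G) :
    z (a, b) - A.ρ g (z (g⁻¹ * a * g, g⁻¹ * b * g)) =
      A.ρ a (conjCochain A z g b) - conjCochain A z g (a * b) + conjCochain A z g a := by
  have hc := (mem_cocycles₂_iff z).1 hz
  have h1 := hc a b g
  have h2 := hc a g (g⁻¹ * b * g)
  have h3 := hc g (g⁻¹ * a * g) (g⁻¹ * b * g)
  have e2 : g * (g⁻¹ * b * g) = b * g := by group
  have e3 : g * (g⁻¹ * a * g) = a * g := by group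
  have e4 : g⁻¹ * a * g * (g⁻¹ * b * g) = g⁻¹ * (a * b) * g := by group
  rw [e2] at h2
  rw [e3, e4] at h3
  unfold conjCochain
  rw [map_sub]
  linear_combination (norm := abel) h1 - h2 + h3

end Conj

section Mackey

variable {k G : Type} [CommRing k] [Group G] (U : Subgroup G)

/-- The coefficient of an element of `k[G ⧸ U]` at a coset. -/
def cosetCoeff (v : Rep.ofMulAction k G (G ⧸ U)) (x : G ⧸ U) : k :=
  MonoidAlgebra.coeffLinearEquiv k v x

theorem cosetCoeff_add (v v' : Rep.ofMulAction k G (G ⧸ U)) (x : G ⧸ U) :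
    cosetCoeff U (v + v') x = cosetCoeff U v x + cosetCoeff U v' x := by
  unfold cosetCoeff
  rw [map_add]
  rfl

theorem cosetCoeff_sub (v v' : Rep.ofMulAction k G (G ⧸ U)) (x : G ⧸ U) :
    cosetCoeff U (v - v') x = cosetCoeff U v x - cosetCoeff U v' x := by
  unfold cosetCoeff
  rw [map_sub]
  rfl

theorem cosetCoeff_rho (a : G) (v : Rep.ofMulAction k G (G ⧸ U)) (x : G ⧸ U) :
    cosetCoeff U ((Rep.ofMulAction k G (G ⧸ U)).ρ a v) x = cosetCoeff U v (a⁻¹ • x) :=
  Representation.coeff_ofMulAction a v x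

variable {H' : Type} [Group H'] (f : H' →* G)

/-- The 1-cochain on `H'` trivialising the `g`-conjugate of `z` at the coset `[1]`. -/
def mackeyCochain (z : G × G → Rep.ofMulAction k G (G ⧸ U))
    (w : H' → Rep.ofMulAction k G (G ⧸ U)) (g : G) (s : H') : k :=
  cosetCoeff U (w s - conjCochain (Rep.ofMulAction k G (G ⧸ U)) z g (f s)) ((g : G) : G ⧸ U)

/-- **Mackey coefficient.** -/
theorem mackey_coeff (z : G × G → Rep.ofMulAction k G (G ⧸ U))
    (hz : z ∈ cocycles₂ (Rep.ofMulAction k G (G ⧸ U)))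
    (w : H' → Rep.ofMulAction k G (G ⧸ U))
    (hzw : ∀ s t : H', z (f s, f t) =
      (Rep.ofMulAction k G (G ⧸ U)).ρ (f s) (w t) - w (s * t) + w s)
    (g : G) (s t : H') (hs : g⁻¹ * f s * g ∈ U) :
    cosetCoeff U (z (g⁻¹ * f s * g, g⁻¹ * f t * g)) ((1 : G) : G ⧸ U) =
      mackeyCochain U f z w g t - mackeyCochain U f z w g (s * t) + mackeyCochain U f z w g s := by
  have h1 := conj_homotopy (Rep.ofMulAction k G (G ⧸ U)) z hz g (f s) (f t)
  -- `g • z(conj) = d (w - u ∘ f) (s, t)`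
  have h2 : (Rep.ofMulAction k G (G ⧸ U)).ρ g (z (g⁻¹ * f s * g, g⁻¹ * f t * g)) =
      (Rep.ofMulAction k G (G ⧸ U)).ρ (f s)
          (w t - conjCochain (Rep.ofMulAction k G (G ⧸ U)) z g (f t))
        - (w (s * t) - conjCochain (Rep.ofMulAction k G (G ⧸ U)) z g (f (s * t)))
        + (w s - conjCochain (Rep.ofMulAction k G (G ⧸ U)) z g (f s)) := by
    rw [map_sub, map_mul]
    rw [hzw s t] at h1
    linear_combination (norm := abel) -h1
  have h3 : cosetCoeff U ((Rep.ofMulAction k G (G ⧸ U)).ρ g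
        (z (g⁻¹ * f s * g, g⁻¹ * f t * g))) ((g : G) : G ⧸ U) =
      cosetCoeff U (z (g⁻¹ * f s * g, g⁻¹ * f t * g)) ((1 : G) : G ⧸ U) := by
    rw [cosetCoeff_rho]
    congr 1
    show ((g⁻¹ * g : G) : G ⧸ U) = _
    rw [inv_mul_cancel]
  have h4 : (f s)⁻¹ • ((g : G) : G ⧸ U) = ((g : G) : G ⧸ U) := by
    show (((f s)⁻¹ * g : G) : G ⧸ U) = _
    rw [QuotientGroup.eq]
    have : ((f s)⁻¹ * g)⁻¹ * g = g⁻¹ * f s * g := by group
    rw [this]
    exact hs
  rw [← h3, h2, cosetCoeff_add, cosetCoeff_sub, cosetCoeff_rho, h4]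
  rfl

/-- Level-constancy of the Mackey cochain. -/
theorem mackeyCochain_mul_right (z : G × G → Rep.ofMulAction k G (G ⧸ U))
    (w : H' → Rep.ofMulAction k G (G ⧸ U)) (g : G) (N : Subgroup G) (hN : N.Normal)
    (hzN : ∀ a b n n' : G, n ∈ N → n' ∈ N → z (a * n, b * n') = z (a, b))
    (s n : H') (hn : f n ∈ N) (hw : w (s * n) = w s) :
    mackeyCochain U f z w g (s * n) = mackeyCochain U f z w g s := by
  unfold mackeyCochain conjCochain
  rw [hw, map_mul]
  have h1 : z (f s * f n, g) = z (f s, g) := by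
    have := hzN (f s) g (f n) 1 hn N.one_mem
    rwa [mul_one] at this
  have h2 : z (g, g⁻¹ * (f s * f n) * g) = z (g, g⁻¹ * f s * g) := by
    have e : g⁻¹ * (f s * f n) * g = g⁻¹ * f s * g * (g⁻¹ * f n * g) := by group
    have hc : g⁻¹ * f n * g ∈ N := by
      have := hN.conj_mem (f n) hn g⁻¹
      rwa [inv_inv] at this
    have := hzN g (g⁻¹ * f s * g) 1 (g⁻¹ * f n * g) N.one_mem hc
    rw [mul_one] at this
    rw [e, this]
  rw [h1, h2]

end Mackey

end Fermat.Agent.S55.H53
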