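/-
Program C (S55), bridge (LOC-1), local part (helper53): the CONVERSE of helper26's leaf (KUM).

If the function `f` on `Gal(Ω/E)²` realised by a unit cocycle `c` of a finite Galois layer `L'/E`
is the coboundary of a level-constant function `w` on `Gal(Ω/E)`, then `[c] = 0` in
`H²(Gal(L'/E), L'ˣ)`: the cochain `ζ ^ w` lives on a finite Galois layer `M ⊇ L'`, so the
inflation of `c` to `M` is a coboundary, and inflation is injective (`H93.leafInflInj`).
-/
import Fermat.Agent.S55.H26.LocalInvPlan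
import Fermat.Agent.S55.H93.InfResLocal

set_option autoImplicit false

open CategoryTheory groupCohomology IntermediateField

noncomputable section

namespace Fermat.Agent.S55.H53

open Fermat.Agent.S55.H49 Fermat.Agent.S55.H26 Fermat.Agent.S55.H66

variable (p : ℕ) [Fact p.Prime] (q : ℕ) [Fact q.Prime]

/-! ### `zetaPow` is additive -/

section ZetaPow

variable {q}
variable {F : Type} [Field F] [Algebra F (PadicAlgCl q)]
variable {L : IntermediateField F (PadicAlgCl q)}

theorem pow_val_add {M : Type*} [Monoid M] (ζ : M) (hζ : ζ ^ p = 1) (a b : ZMod p) :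
    ζ ^ (a + b).val = ζ ^ a.val * ζ ^ b.val := by
  rw [ZMod.val_add, ← pow_add]
  exact (pow_eq_pow_mod _ hζ).symm

theorem zetaPow_add (ζ : Lˣ) (hζ : ζ ^ p = 1) (a b : ZMod p) :
    zetaPow p ζ (a + b) = zetaPow p ζ a + zetaPow p ζ b := by
  show Additive.ofMul (ζ ^ (a + b).val) = Additive.ofMul (ζ ^ a.val) + Additive.ofMul (ζ ^ b.val)
  rw [← ofMul_mul, pow_val_add p ζ hζ]

/-- `ζ ^ f = ζ ^ (w₂ - w₁₂ + w₁)`, additively. -/
theorem zetaPow_cob (ζ : Lˣ) (hζ : ζ ^ p = 1) (a b c d : ZMod p) (h : a = b - c + d) :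
    zetaPow p ζ a = zetaPow p ζ b - zetaPow p ζ c + zetaPow p ζ d := by
  have h' : a + c = b + d := by rw [h]; ring
  have h1 := zetaPow_add p ζ hζ a c
  have h2 := zetaPow_add p ζ hζ b d
  rw [h'] at h1
  rw [h1] at h2
  rw [eq_sub_iff_add_eq.mpr h2.symm]
  abel

end ZetaPow

/-! ### Restriction from `Gal(Ω/E)` -/

section Res

variable {q}
variable (E : IntermediateField ℚ_[q] (PadicAlgCl q))

theorem normal_top : Normal E (PadicAlgCl q) :=
  Normal.tower_top_of_normal ℚ_[q] E (PadicAlgCl q)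

theorem resE_apply (M : IntermediateField E (PadicAlgCl q)) [Normal E M]
    (s : E.fixingSubgroup) (x : M) :
    ((resE E M s x : M) : PadicAlgCl q) = (s : PadicAlgCl q ≃ₐ[ℚ_[q]] PadicAlgCl q) x := by
  have h := AlgEquiv.restrictNormal_commutes
    (IntermediateField.fixingSubgroupEquiv E s : PadicAlgCl q ≃ₐ[E] PadicAlgCl q) M x
  exact h

theorem resE_surjective (M : IntermediateField E (PadicAlgCl q)) [Normal E M] :
    Function.Surjective (resE E M) := by
  have := normal_top E
  intro σ
  obtain ⟨s', hs'⟩ := AlgEquiv.restrictNormalHom_surjective (F := E) (K₁ := M) (PadicAlgCl q) σ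
  refine ⟨(IntermediateField.fixingSubgroupEquiv E).symm s', ?_⟩
  show AlgEquiv.restrictNormalHom M
    ((IntermediateField.fixingSubgroupEquiv E) ((IntermediateField.fixingSubgroupEquiv E).symm s'))
      = σ
  rw [MulEquiv.apply_symm_apply, hs']

theorem resHom_resE {L' M : IntermediateField E (PadicAlgCl q)} [Normal E L'] [Normal E M]
    (h : L' ≤ M) (s : E.fixingSubgroup) : resHom h (resE E M s) = resE E L' s := by
  refine AlgEquiv.ext fun x => Subtype.ext ?_
  rw [resHom_apply, resE_apply, resE_apply]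
  rfl

end Res

/-! ### The converse of (KUM) -/

section Main

variable {q}

/-- An element of the local Galois group fixing `ι α` maps into the fixing subgroup of
`F' = ℚ⟮α⟯`. -/
theorem localGaloisToGlobal_mem_fixingSubgroup
    (F' : IntermediateField ℚ (AlgebraicClosure ℚ)) (α : F') (hα : ℚ⟮α⟯ = ⊤)
    (n : PadicAlgCl q ≃ₐ[ℚ_[q]] PadicAlgCl q)
    (hn : n (padicEmbedding q (α : AlgebraicClosure ℚ)) =
      padicEmbedding q (α : AlgebraicClosure ℚ)) :
    localGaloisToGlobal q n ∈ F'.fixingSubgroup := by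
  rw [IntermediateField.mem_fixingSubgroup_iff]
  intro y hy
  have hmem : (⟨y, hy⟩ : F') ∈ ℚ⟮α⟯ := by rw [hα]; exact IntermediateField.mem_top
  have key : ∀ x : F', x ∈ ℚ⟮α⟯ →
      localGaloisToGlobal q n (x : AlgebraicClosure ℚ) = (x : AlgebraicClosure ℚ) := by
    intro x hx
    induction hx using IntermediateField.adjoin_induction with
    | mem x hx =>
      rw [Set.mem_singleton_iff] at hx
      subst hx
      apply (padicEmbedding q).toRingHom.injective
      show padicEmbedding q _ = padicEmbedding q _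
      rw [padicEmbedding_localGaloisToGlobal, hn]
    | algebraMap r =>
      exact (localGaloisToGlobal q n).commutes r
    | add x y _ _ hx hy =>
      push_cast
      rw [map_add, hx, hy]
    | inv x _ hx =>
      push_cast
      rw [map_inv₀, hx]
    | mul x y _ _ hx hy =>
      push_cast
      rw [map_mul, hx, hy]
  exact key ⟨y, hy⟩ hmem

set_option maxHeartbeats 400000 in
/-- Core of the converse of (KUM): `w` factors through a finite Galois layer `M ⊇ L'`. -/
theorem h2π_eq_zero_of_realises_of_factor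
    (E : IntermediateField ℚ_[q] (PadicAlgCl q)) [FiniteDimensional ℚ_[q] E]
    (L' M : IntermediateField E (PadicAlgCl q)) [FiniteDimensional E L'] [IsGalois E L']
    [FiniteDimensional E M] [IsGalois E M] (hL'M : L' ≤ M)
    (ζ' : L'ˣ) (hζp : ζ' ^ p = 1) (hζE : ∀ σ : L' ≃ₐ[E] L', σ (ζ' : L') = ζ')
    (f : E.fixingSubgroup × E.fixingSubgroup → ZMod p)
    (c : cocycles₂ (Rep.ofAlgebraAutOnUnits E L'))
    (hreal : Realises p q E L' ζ' f c)
    (w : E.fixingSubgroup → ZMod p)
    (hwM : ∀ s s' : E.fixingSubgroup, resE E M s = resE E M s' → w s = w s')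
    (hf : ∀ h₁ h₂ : E.fixingSubgroup, f (h₁, h₂) = w h₂ - w (h₁ * h₂) + w h₁) :
    H2π (Rep.ofAlgebraAutOnUnits E L') c = 0 := by
  classical
  -- the cochain `ζ ^ w` on `Gal(M/E)`
  let ζM : Mˣ := Units.map ((inclusion hL'M : L' →ₐ[E] M) : L' →* M) ζ'
  have hζMp : ζM ^ p = 1 := by rw [← map_pow, hζp, map_one]
  let lift : (M ≃ₐ[E] M) → E.fixingSubgroup := Function.surjInv (resE_surjective E M)
  have hlift : ∀ σ, resE E M (lift σ) = σ := Function.surjInv_eq (resE_surjective E M)
  let b : (M ≃ₐ[E] M) → Rep.ofAlgebraAutOnUnits E M := fun σ => zetaPow p ζM (w (lift σ))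
  -- `Gal(M/E)` fixes `ζM`
  have hζfix : ∀ σ : M ≃ₐ[E] M, σ (ζM : M) = ζM := by
    intro σ
    apply Subtype.ext
    have h1 := resHom_apply hL'M σ (ζ' : L')
    rw [hζE] at h1
    exact h1.symm
  have hcob : ⇑(mapCocycles₂ (resHom hL'M) (inflRep hL'M) c) ∈
      coboundaries₂ (Rep.ofAlgebraAutOnUnits E M) := by
    refine ⟨b, ?_⟩
    funext ⟨σ, τ⟩
    have hs := hlift σ
    have ht := hlift τ
    have e1 : resHom hL'M σ = resE E L' (lift σ) := by rw [← resHom_resE E hL'M, hs]
    have e2 : resHom hL'M τ = resE E L' (lift τ) := by rw [← resHom_resE E hL'M, ht]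
    have h3 : c.1 (resHom hL'M σ, resHom hL'M τ) = zetaPow p ζ' (f (lift σ, lift τ)) :=
      (congrArg₂ (fun x y => c.1 (x, y)) e1 e2).trans (hreal (lift σ) (lift τ))
    have hR : (mapCocycles₂ (resHom hL'M) (inflRep hL'M) c) (σ, τ) =
        zetaPow p ζM (f (lift σ, lift τ)) := by
      show (inflRep hL'M).hom (c.1 (resHom hL'M σ, resHom hL'M τ)) = _
      rw [h3]
      show Additive.ofMul (Units.map _ (ζ' ^ _)) = Additive.ofMul (ζM ^ _)
      rw [map_pow]
    have hL1 : (Rep.ofAlgebraAutOnUnits E M).ρ σ (b τ) = b τ := by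
      have h5 : Units.map ((σ : M ≃* M) : M →* M) ζM = ζM := Units.ext (hζfix σ)
      show Additive.ofMul (Units.map ((σ : M ≃* M) : M →* M) (ζM ^ _)) = Additive.ofMul (ζM ^ _)
      rw [map_pow, h5]
    have hL2 : b (σ * τ) = zetaPow p ζM (w (lift σ * lift τ)) := by
      have h4 : w (lift (σ * τ)) = w (lift σ * lift τ) := by
        apply hwM
        rw [hlift, map_mul, hs, ht]
      show zetaPow p ζM (w (lift (σ * τ))) = _
      rw [h4]
    rw [hR]
    show (Rep.ofAlgebraAutOnUnits E M).ρ σ (b τ) - b (σ * τ) + b σ = _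
    rw [hL1, hL2]
    exact (zetaPow_cob p ζM hζMp _ _ _ _ (hf (lift σ) (lift τ))).symm
  have h0 : (inflH2 hL'M).hom (H2π (Rep.ofAlgebraAutOnUnits E L') c) = 0 := by
    have h1 := H2π_comp_map_apply (resHom hL'M) (inflRep hL'M) c
    have h2 := (H2π_eq_zero_iff (mapCocycles₂ (resHom hL'M) (inflRep hL'M) c)).2 hcob
    exact h1.trans h2
  exact Fermat.Agent.S55.H93.leafInflInj q E L' M hL'M (h0.trans (map_zero _).symm)

/-- **Converse of (KUM)** (helper26's vocabulary): a unit cocycle of a finite Galois layer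
`L'/E` realising a function `f` on `Gal(Ω/E)²` which is the coboundary of a level-constant
function is itself a coboundary. -/
theorem h2π_eq_zero_of_realises_coboundary
    (E : IntermediateField ℚ_[q] (PadicAlgCl q)) [FiniteDimensional ℚ_[q] E]
    (L' : IntermediateField E (PadicAlgCl q)) [FiniteDimensional E L'] [IsGalois E L']
    (ζ' : L'ˣ) (hζp : ζ' ^ p = 1) (hζE : ∀ σ : L' ≃ₐ[E] L', σ (ζ' : L') = ζ')
    (f : E.fixingSubgroup × E.fixingSubgroup → ZMod p)
    (c : cocycles₂ (Rep.ofAlgebraAutOnUnits E L'))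
    (hreal : Realises p q E L' ζ' f c)
    (w : E.fixingSubgroup → ZMod p) (hw : IsLevelFun₁ (Dloc q) E.fixingSubgroup w)
    (hf : ∀ h₁ h₂ : E.fixingSubgroup, f (h₁, h₂) = w h₂ - w (h₁ * h₂) + w h₁) :
    H2π (Rep.ofAlgebraAutOnUnits E L') c = 0 := by
  classical
  obtain ⟨F', hF', hwF⟩ := hw
  have hF'' : FiniteDimensional ℚ F' := hF'
  obtain ⟨α, hα⟩ := Field.exists_primitive_element ℚ F'
  obtain ⟨M, hfM, hgM, hL'M, haM⟩ : ∃ M : IntermediateField E (PadicAlgCl q),
      FiniteDimensional E M ∧ IsGalois E M ∧ L' ≤ M ∧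
        padicEmbedding q (α : AlgebraicClosure ℚ) ∈ M := by
    have hfa : FiniteDimensional E
        (IntermediateField.adjoin E {padicEmbedding q (α : AlgebraicClosure ℚ)}) :=
      IntermediateField.adjoin.finiteDimensional (Algebra.IsIntegral.isIntegral _)
    have hfK₁ : FiniteDimensional E
        ↥(L' ⊔ IntermediateField.adjoin E {padicEmbedding q (α : AlgebraicClosure ℚ)}) :=
      IntermediateField.finiteDimensional_sup _ _
    have hnt := normal_top E
    have hK₁M := IntermediateField.le_normalClosure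
      (L' ⊔ IntermediateField.adjoin E {padicEmbedding q (α : AlgebraicClosure ℚ)})
    have hnM : Normal E (IntermediateField.normalClosure E
        ↥(L' ⊔ IntermediateField.adjoin E {padicEmbedding q (α : AlgebraicClosure ℚ)})
        (PadicAlgCl q)) := normalClosure.normal E _ _
    have hfM : FiniteDimensional E (IntermediateField.normalClosure E
        ↥(L' ⊔ IntermediateField.adjoin E {padicEmbedding q (α : AlgebraicClosure ℚ)})
        (PadicAlgCl q)) := normalClosure.is_finiteDimensional E _ _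
    have hsM : Algebra.IsSeparable E (IntermediateField.normalClosure E
        ↥(L' ⊔ IntermediateField.adjoin E {padicEmbedding q (α : AlgebraicClosure ℚ)})
        (PadicAlgCl q)) := Algebra.IsAlgebraic.isSeparable_of_perfectField
    exact ⟨_, hfM, IsGalois.mk, le_sup_left.trans hK₁M,
      hK₁M ((le_sup_right : IntermediateField.adjoin E
        {padicEmbedding q (α : AlgebraicClosure ℚ)} ≤ _)
        (IntermediateField.mem_adjoin_simple_self E _))⟩
  refine h2π_eq_zero_of_realises_of_factor p E L' M hL'M ζ' hζp hζE f c hreal w ?_ hf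
  -- `w` factors through `Gal(M/E)`
  intro s s' hss
  have hn : resE E M (s⁻¹ * s') = 1 := by rw [map_mul, map_inv, hss, inv_mul_cancel]
  have hfix : ((s⁻¹ * s' : E.fixingSubgroup) : PadicAlgCl q ≃ₐ[ℚ_[q]] PadicAlgCl q)
      (padicEmbedding q (α : AlgebraicClosure ℚ)) = padicEmbedding q (α : AlgebraicClosure ℚ) := by
    have h1 := resE_apply E M (s⁻¹ * s') ⟨_, haM⟩
    rw [hn] at h1
    exact h1.symm
  have hmem : ((s⁻¹ * s' : E.fixingSubgroup) : PadicAlgCl q ≃ₐ[ℚ_[q]] PadicAlgCl q) ∈
      (Dloc q).sub F' :=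
    localGaloisToGlobal_mem_fixingSubgroup F' α hα _ hfix
  have h2 := hwF s (s⁻¹ * s') hmem
  rw [mul_inv_cancel_left] at h2
  exact h2.symm

end Main

end Fermat.Agent.S55.H53
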