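/-
Program C (S55), bridge (LOC-1), cocycle-level core (helper53).

`locH2At_eq_zero`: let `L` be a number field, `K/L` a finite Galois layer (both inside `ℚ̄`),
`z : G_ℚ × G_ℚ → 𝔽_p[G_ℚ ⧸ G_L]` a level-constant 2-cocycle whose Shapiro restriction is
realised on `Gal(K/L)` by the unit cocycle `c` (`c (h₁|K, h₂|K) = ζ ^ coeff_[1] z (h₁, h₂)`,
`ζ ∈ μ_p(L)`).  If the pull-back of `z` to the local Galois group `Gal(ℚ̄_q/ℚ_q)` (along
`localGaloisToGlobal q`) is the coboundary of a level-constant 1-cochain — i.e. the class of `z`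
dies in the Prelude's `continuousH2 (localGaloisToGlobal q) _` — then the localisation
`H88.locH2At q L τ' [c]` vanishes at EVERY embedding `τ' : K →+* PadicAlgCl q` (every place of `K`
above `q`); in particular `H88.linvAt q L τ' [c] = 0`.
-/
import Fermat.Agent.S55.H53.LocConj
import Fermat.Agent.S55.H53.LocKum
import Fermat.Agent.S55.H88.LayerDefs

set_option autoImplicit false

open CategoryTheory groupCohomology IntermediateField

noncomputable section

namespace Fermat.Agent.S55.H53

open Fermat.Agent.S55.H49 Fermat.Agent.S55.H26 Fermat.Agent.S55.H66 Fermat.Agent.S55.H88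

local instance isAlgebraicQbar_h53 : Algebra.IsAlgebraic ℚ (AlgebraicClosure ℚ) :=
  AlgebraicClosure.isAlgebraic ℚ
local instance isAlgClosureQbar_h53 : IsAlgClosure ℚ (AlgebraicClosure ℚ) :=
  ⟨inferInstance, inferInstance⟩
local instance normalQbar_h53 : Normal ℚ (AlgebraicClosure ℚ) :=
  IsAlgClosure.normal ℚ (AlgebraicClosure ℚ)

variable (p : ℕ) [Fact p.Prime] (q : ℕ) [Fact q.Prime]

/-! ### Global restriction and the choice of `g` -/

section Global

variable (L : IntermediateField ℚ (AlgebraicClosure ℚ))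
  (K : IntermediateField L (AlgebraicClosure ℚ))

/-- Restriction `Gal(ℚ̄/L) → Gal(K/L)`. -/
def galRes [Normal L K] : L.fixingSubgroup →* (K ≃ₐ[L] K) :=
  (AlgEquiv.restrictNormalHom K).comp (IntermediateField.fixingSubgroupEquiv L).toMonoidHom

theorem galRes_apply [Normal L K] (h : L.fixingSubgroup) (x : K) :
    ((galRes L K h x : K) : AlgebraicClosure ℚ) = (h : GQ) x := by
  have h1 := AlgEquiv.restrictNormal_commutes
    (IntermediateField.fixingSubgroupEquiv L h : AlgebraicClosure ℚ ≃ₐ[L] AlgebraicClosure ℚ) K x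
  exact h1

variable {L K}

/-- Every embedding of `K` into `PadicAlgCl q` is `padicEmbedding q ∘ g` for some `g ∈ G_ℚ`. -/
theorem exists_global_conj (τ' : K →+* PadicAlgCl q) :
    ∃ g : GQ, ∀ x : K, τ' x = padicEmbedding q (g (x : AlgebraicClosure ℚ)) := by
  have halg : Algebra.IsAlgebraic K (AlgebraicClosure ℚ) :=
    Algebra.IsAlgebraic.tower_top (K := ℚ) K
  obtain ⟨τ₁, hτ₁⟩ := exists_extend q (k := K) (K := AlgebraicClosure ℚ) τ'
  have h : ((padicEmbedding q : AlgebraicClosure ℚ →+* PadicAlgCl q)).comp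
      (algebraMap ℚ (AlgebraicClosure ℚ)) = τ₁.comp (algebraMap ℚ (AlgebraicClosure ℚ)) :=
    Subsingleton.elim _ _
  obtain ⟨σ, hσ⟩ := exists_algEquiv_comp_eq q (k := ℚ) (K := AlgebraicClosure ℚ)
    (padicEmbedding q : AlgebraicClosure ℚ →+* PadicAlgCl q) τ₁ h
  refine ⟨σ, fun x => ?_⟩
  have h1 := RingHom.congr_fun hτ₁ x
  have h2 := RingHom.congr_fun hσ (x : AlgebraicClosure ℚ)
  exact h1.symm.trans h2

end Global

/-- `ζ ^ a` as an element of the Galois module `Kˣ` (global analogue of `H26.zetaPow`). -/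
def unitPow {F K : Type} [Field F] [Field K] [Algebra F K] (ζ : Kˣ) (a : ZMod p) :
    Rep.ofAlgebraAutOnUnits F K :=
  Rep.toAdditive.symm (Additive.ofMul (ζ ^ a.val))

/-- Two finite levels are contained in a finite level with normal fixing subgroup. -/
theorem exists_normal_level (F₁ F₂ : IntermediateField ℚ (AlgebraicClosure ℚ))
    [FiniteDimensional ℚ F₁] [FiniteDimensional ℚ F₂] :
    ∃ F' : IntermediateField ℚ (AlgebraicClosure ℚ), FiniteDimensional ℚ F' ∧
      F'.fixingSubgroup.Normal ∧ F₁ ≤ F' ∧ F₂ ≤ F' := by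
  have hf : FiniteDimensional ℚ ↥(F₁ ⊔ F₂) := IntermediateField.finiteDimensional_sup F₁ F₂
  have hle := IntermediateField.le_normalClosure (F₁ ⊔ F₂)
  have hn : Normal ℚ (IntermediateField.normalClosure ℚ ↥(F₁ ⊔ F₂) (AlgebraicClosure ℚ)) :=
    normalClosure.normal ℚ _ _
  refine ⟨IntermediateField.normalClosure ℚ ↥(F₁ ⊔ F₂) (AlgebraicClosure ℚ),
    normalClosure.is_finiteDimensional ℚ _ _, ?_, le_sup_left.trans hle, le_sup_right.trans hle⟩
  rw [← IntermediateField.restrictNormalHom_ker]
  exact MonoidHom.normal_ker _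

/-! ### From the global layer to the local layer at `τ' = ι ∘ g` -/

section Local

variable {q}
variable (L : IntermediateField ℚ (AlgebraicClosure ℚ))
  (K : IntermediateField L (AlgebraicClosure ℚ))
  (τ' : K →+* PadicAlgCl q) (g : GQ)
  (hg : ∀ x : K, τ' x = padicEmbedding q (g (x : AlgebraicClosure ℚ)))

include hg in
/-- The elements of the local Galois group fixing `L_w = ℚ_q(τ' L)` are, after conjugation by
`g`, in `Gal(ℚ̄/L)`. -/
theorem conj_mem_fixingSubgroup (s : PadicAlgCl q ≃ₐ[ℚ_[q]] PadicAlgCl q)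
    (hs : s ∈ (locBase q L τ').fixingSubgroup) :
    g⁻¹ * localGaloisToGlobal q s * g ∈ L.fixingSubgroup := by
  rw [IntermediateField.mem_fixingSubgroup_iff]
  intro y hy
  have h1 : localGaloisToGlobal q s (g y) = g y := by
    apply (padicEmbedding q).toRingHom.injective
    show padicEmbedding q _ = padicEmbedding q _
    rw [padicEmbedding_localGaloisToGlobal]
    have h3 : padicEmbedding q (g y) = τ' (algebraMap L K ⟨y, hy⟩) :=
      (hg (algebraMap L K ⟨y, hy⟩)).symm
    rw [h3]
    exact (IntermediateField.mem_fixingSubgroup_iff _ _).1 hs _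
      (IntermediateField.subset_adjoin ℚ_[q] _ ⟨⟨y, hy⟩, rfl⟩)
  show g⁻¹ (localGaloisToGlobal q s (g y)) = y
  rw [h1]
  exact g.symm_apply_apply y

/-- The decomposition-group map on restrictions of elements of the local Galois group. -/
theorem locGalToGlobal_resE [Normal L K] (s : (locBase q L τ').fixingSubgroup) :
    locGalToGlobal q L τ' (resE (locBase q L τ') (locExt q L τ') s) =
      galRes L K ⟨g⁻¹ * localGaloisToGlobal q s * g,
        conj_mem_fixingSubgroup L K τ' g hg s s.2⟩ := by
  refine AlgEquiv.ext fun x => (locExtEmb q L τ').injective ?_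
  rw [← locGalToGlobal_spec]
  apply Subtype.ext
  rw [resE_apply, coe_locExtEmb, coe_locExtEmb, hg, hg, galRes_apply]
  have h1 : g ((g⁻¹ * localGaloisToGlobal q s * g) (x : AlgebraicClosure ℚ)) =
      localGaloisToGlobal q s (g x) := by
    show g (g⁻¹ (localGaloisToGlobal q s (g x))) = _
    exact g.apply_symm_apply _
  show (s : PadicAlgCl q ≃ₐ[ℚ_[q]] PadicAlgCl q) (padicEmbedding q (g x)) =
    padicEmbedding q (g ((g⁻¹ * localGaloisToGlobal q s * g) (x : AlgebraicClosure ℚ)))
  rw [h1, padicEmbedding_localGaloisToGlobal]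

end Local

omit [Fact p.Prime] in
/-- The localisation map on `ζ ^ a`. -/
theorem globalToLocUnits_unitPow {q : ℕ} [Fact q.Prime] (k : Type) {K : Type} [Field k] [Field K]
    [Algebra k K] [Normal k K] (τ' : K →+* PadicAlgCl q) (ζ : Kˣ) (a : ZMod p) :
    (globalToLocUnits q k τ').hom (unitPow p (F := k) ζ a) =
      zetaPow p (Units.map (locExtEmb q k τ' : K →* locExt q k τ') ζ) a :=
  congrArg Additive.ofMul (map_pow (Units.map (locExtEmb q k τ' : K →* locExt q k τ')) ζ a.val)

/-! ### Finiteness of the local layer -/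

section Fin

variable {q}
variable (L : IntermediateField ℚ (AlgebraicClosure ℚ)) [FiniteDimensional ℚ L]
  (K : IntermediateField L (AlgebraicClosure ℚ)) [FiniteDimensional L K]
  (τ' : K →+* PadicAlgCl q)

omit [FiniteDimensional L K] in
theorem locBase_finiteDimensional : FiniteDimensional ℚ_[q] (locBase q L τ') := by
  have hL : NumberField L := ⟨⟩
  exact finiteDimensional_locField q (τ'.comp (algebraMap L K))

theorem locExt_finiteDimensional : FiniteDimensional (locBase q L τ') (locExt q L τ') := by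
  have hK0 : FiniteDimensional ℚ K := FiniteDimensional.trans ℚ L K
  have hK : NumberField K := ⟨⟩
  have h1 : FiniteDimensional ℚ_[q] (locField q τ') := finiteDimensional_locField q τ'
  have h2 : FiniteDimensional ℚ_[q] (locExt q L τ') :=
    Module.Finite.equiv (upEquiv (locBase_le q L τ')).symm.toLinearEquiv
  exact FiniteDimensional.right ℚ_[q] (locBase q L τ') (locExt q L τ')

omit [FiniteDimensional ℚ L] [FiniteDimensional L K] in
theorem locExt_isGalois [Normal L K] : IsGalois (locBase q L τ') (locExt q L τ') := by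
  have hs : Algebra.IsSeparable (locBase q L τ') (locExt q L τ') :=
    Algebra.IsAlgebraic.isSeparable_of_perfectField
  exact IsGalois.mk

end Fin

/-! ### The core of (LOC-1) -/

section Core

variable {q}

/-- **(LOC-1), cocycle-level core.**  See the file header. -/
theorem locH2At_eq_zero (L : IntermediateField ℚ (AlgebraicClosure ℚ)) [FiniteDimensional ℚ L]
    (K : IntermediateField L (AlgebraicClosure ℚ)) [FiniteDimensional L K] [IsGalois L K]
    (ζ : Kˣ) (hζp : ζ ^ p = 1) (hζL : ∀ σ : K ≃ₐ[L] K, σ (ζ : K) = ζ)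
    (z : GQ × GQ → Rep.ofMulAction (ZMod p) GQ (GQ ⧸ L.fixingSubgroup))
    (hz : z ∈ cocycles₂ (Rep.ofMulAction (ZMod p) GQ (GQ ⧸ L.fixingSubgroup)))
    (hzl : IsLevelConstant₂ (MonoidHom.id GQ) z)
    (c : cocycles₂ (Rep.ofAlgebraAutOnUnits L K))
    (hreal : ∀ h₁ h₂ : L.fixingSubgroup, c.1 (galRes L K h₁, galRes L K h₂) =
      unitPow p ζ (cosetCoeff L.fixingSubgroup (z ((h₁ : GQ), (h₂ : GQ)))
        ((1 : GQ) : GQ ⧸ L.fixingSubgroup)))
    (w : (PadicAlgCl q ≃ₐ[ℚ_[q]] PadicAlgCl q) →
      Rep.ofMulAction (ZMod p) GQ (GQ ⧸ L.fixingSubgroup))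
    (hwl : IsLevelConstant₁ (localGaloisToGlobal q) w)
    (hzw : ∀ s t : PadicAlgCl q ≃ₐ[ℚ_[q]] PadicAlgCl q,
      z (localGaloisToGlobal q s, localGaloisToGlobal q t) =
        (Rep.ofMulAction (ZMod p) GQ (GQ ⧸ L.fixingSubgroup)).ρ (localGaloisToGlobal q s) (w t)
          - w (s * t) + w s)
    (τ' : K →+* PadicAlgCl q) :
    locH2At q L τ' (H2π (Rep.ofAlgebraAutOnUnits L K) c) = 0 := by
  classical
  obtain ⟨g, hg⟩ := exists_global_conj q τ'
  have hfE := locBase_finiteDimensional L K τ'
  have hfL := locExt_finiteDimensional L K τ'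
  have hgL := locExt_isGalois L K τ'
  -- the local data
  let ζl : (locExt q L τ')ˣ := Units.map (locExtEmb q L τ' : K →* locExt q L τ') ζ
  have hζlp : ζl ^ p = 1 := by rw [← map_pow, hζp, map_one]
  have hζlE : ∀ σ : locExt q L τ' ≃ₐ[locBase q L τ'] locExt q L τ', σ (ζl : locExt q L τ') = ζl := by
    intro σ
    show σ (locExtEmb q L τ' (ζ : K)) = locExtEmb q L τ' (ζ : K)
    rw [locGalToGlobal_spec, hζL]
  let cl : cocycles₂ (Rep.ofAlgebraAutOnUnits (locBase q L τ') (locExt q L τ')) :=
    mapCocycles₂ (locGalToGlobal q L τ') (globalToLocUnits q L τ') c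
  let fl : (locBase q L τ').fixingSubgroup × (locBase q L τ').fixingSubgroup → ZMod p :=
    fun st => cosetCoeff L.fixingSubgroup
      (z (g⁻¹ * localGaloisToGlobal q st.1 * g, g⁻¹ * localGaloisToGlobal q st.2 * g))
      ((1 : GQ) : GQ ⧸ L.fixingSubgroup)
  let wl : (locBase q L τ').fixingSubgroup → ZMod p :=
    fun s => mackeyCochain L.fixingSubgroup (localGaloisToGlobal q) z w g s
  have hreal' : Realises p q (locBase q L τ') (locExt q L τ') ζl fl cl := by
    intro s t
    have h1 := hreal ⟨_, conj_mem_fixingSubgroup L K τ' g hg s s.2⟩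
      ⟨_, conj_mem_fixingSubgroup L K τ' g hg t t.2⟩
    have e1 := locGalToGlobal_resE L K τ' g hg s
    have e2 := locGalToGlobal_resE L K τ' g hg t
    have h2 : c.1 (locGalToGlobal q L τ' (resE (locBase q L τ') (locExt q L τ') s),
        locGalToGlobal q L τ' (resE (locBase q L τ') (locExt q L τ') t)) =
        unitPow p ζ (fl (s, t)) :=
      (congrArg₂ (fun x y => c.1 (x, y)) e1 e2).trans h1
    have h3 : cl.1 (resE (locBase q L τ') (locExt q L τ') s,
        resE (locBase q L τ') (locExt q L τ') t) =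
        (globalToLocUnits q L τ').hom (c.1 (locGalToGlobal q L τ'
          (resE (locBase q L τ') (locExt q L τ') s),
          locGalToGlobal q L τ' (resE (locBase q L τ') (locExt q L τ') t))) := rfl
    exact (h3.trans (congrArg (globalToLocUnits q L τ').hom h2)).trans
      (globalToLocUnits_unitPow p L τ' ζ (fl (s, t)))
  have hfl : ∀ s t : (locBase q L τ').fixingSubgroup, fl (s, t) = wl t - wl (s * t) + wl s := by
    intro s t
    exact mackey_coeff L.fixingSubgroup (localGaloisToGlobal q) z hz w hzw g s t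
      (conj_mem_fixingSubgroup L K τ' g hg s s.2)
  have hwl' : IsLevelFun₁ (Dloc q) (locBase q L τ').fixingSubgroup wl := by
    obtain ⟨F₁, hF₁, h1⟩ := hzl
    obtain ⟨F₂, hF₂, h2⟩ := hwl
    obtain ⟨F', hF', hN, hle₁, hle₂⟩ := exists_normal_level F₁ F₂
    refine ⟨F', hF', fun s n hn => ?_⟩
    have hn' : localGaloisToGlobal q n ∈ F'.fixingSubgroup := hn
    exact mackeyCochain_mul_right L.fixingSubgroup (localGaloisToGlobal q) z w g
      F'.fixingSubgroup hN
      (fun a b m m' hm hm' => h1 a b m m' (IntermediateField.fixingSubgroup_antitone hle₁ hm)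
        (IntermediateField.fixingSubgroup_antitone hle₁ hm'))
      s n hn' (h2 s n (IntermediateField.fixingSubgroup_antitone hle₂ hn'))
  have h0 := h2π_eq_zero_of_realises_coboundary p (locBase q L τ') (locExt q L τ') ζl hζlp hζlE
    fl cl hreal' wl hwl' hfl
  have h1 := H2π_comp_map_apply (locGalToGlobal q L τ') (globalToLocUnits q L τ') c
  exact h1.trans h0

end Core

end Fermat.Agent.S55.H53
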