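/-
Program C (S55), bridge (LOC-1), frozen form (helper53).

`locH2At_eq_zero_of_locRes` : the hypothesis of `locH2At_eq_zero` read off the Prelude objects.
If `z` is a level-`S` 2-cocycle with values in `𝔽_p[G_ℚ ⧸ G_L]` whose class is killed by the
Prelude's `locRes₂S S _ (localGaloisToGlobal q)` (the local condition of `sha₂` at `q`), and the
unit cocycle `c` of the finite Galois layer `K/L` realises the Shapiro restriction of `z`, then
`H88.locH2At q L τ' [c] = 0` and `H88.linvAt q L τ' [c] = 0` for every place `τ'` of `K` above `q`.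
-/
import Fermat.Agent.S55.H53.LocCore

set_option autoImplicit false

open CategoryTheory groupCohomology IntermediateField

noncomputable section

namespace Fermat.Agent.S55.H53

open Fermat.Agent.S55.H49 Fermat.Agent.S55.H26 Fermat.Agent.S55.H66 Fermat.Agent.S55.H88

variable (p : ℕ) [Fact p.Prime] {q : ℕ} [Fact q.Prime]

/-- **(LOC-1), frozen form.** -/
theorem locH2At_eq_zero_of_locRes (S : Finset Nat.Primes)
    (L : IntermediateField ℚ (AlgebraicClosure ℚ)) [FiniteDimensional ℚ L]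
    (K : IntermediateField L (AlgebraicClosure ℚ)) [FiniteDimensional L K] [IsGalois L K]
    (ζ : Kˣ) (hζp : ζ ^ p = 1) (hζL : ∀ σ : K ≃ₐ[L] K, σ (ζ : K) = ζ)
    (z : levelCocyclesS₂ S (Rep.ofMulAction (ZMod p) GQ (GQ ⧸ L.fixingSubgroup)))
    (c : cocycles₂ (Rep.ofAlgebraAutOnUnits L K))
    (hreal : ∀ h₁ h₂ : L.fixingSubgroup, c.1 (galRes L K h₁, galRes L K h₂) =
      unitPow p ζ (cosetCoeff L.fixingSubgroup
        ((z : GQ × GQ → Rep.ofMulAction (ZMod p) GQ (GQ ⧸ L.fixingSubgroup))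
          ((h₁ : GQ), (h₂ : GQ))) ((1 : GQ) : GQ ⧸ L.fixingSubgroup)))
    (hloc : locRes₂S S (Rep.ofMulAction (ZMod p) GQ (GQ ⧸ L.fixingSubgroup))
      (localGaloisToGlobal q)
      (continuousH2Sπ S (Rep.ofMulAction (ZMod p) GQ (GQ ⧸ L.fixingSubgroup)) z) = 0)
    (τ' : K →+* PadicAlgCl q) :
    locH2At q L τ' (H2π (Rep.ofAlgebraAutOnUnits L K) c) = 0 := by
  have hloc' : continuousH2π (localGaloisToGlobal q)
      (Rep.res (localGaloisToGlobal q) (Rep.ofMulAction (ZMod p) GQ (GQ ⧸ L.fixingSubgroup)))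
      (levelCocycles₂Map (rH := MonoidHom.id _) (rG := localGaloisToGlobal q)
        (localGaloisToGlobal q) (fun _ => rfl)
        (LinearMap.id : (Rep.ofMulAction (ZMod p) GQ (GQ ⧸ L.fixingSubgroup)) →ₗ[ZMod p]
          Rep.res (localGaloisToGlobal q) (Rep.ofMulAction (ZMod p) GQ (GQ ⧸ L.fixingSubgroup)))
        (fun _ _ => rfl)
        (levelCocyclesS₂ToLevelCocycles₂ S _ z)) = 0 := hloc
  rw [continuousH2π_eq_zero_iff, mem_levelCoboundaries₂_iff] at hloc'
  obtain ⟨w, hw, hdw⟩ := hloc'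
  refine locH2At_eq_zero p L K ζ hζp hζL z z.2.1 z.2.2.isLevelConstant₂ c hreal w hw ?_ τ'
  intro s t
  have h1 := congrFun hdw (s, t)
  rw [d₁₂_hom_apply] at h1
  exact h1.symm

/-- **(LOC-1), frozen form, invariants.** -/
theorem linvAt_eq_zero_of_locRes (S : Finset Nat.Primes)
    (L : IntermediateField ℚ (AlgebraicClosure ℚ)) [FiniteDimensional ℚ L]
    (K : IntermediateField L (AlgebraicClosure ℚ)) [FiniteDimensional L K] [IsGalois L K]
    (ζ : Kˣ) (hζp : ζ ^ p = 1) (hζL : ∀ σ : K ≃ₐ[L] K, σ (ζ : K) = ζ)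
    (z : levelCocyclesS₂ S (Rep.ofMulAction (ZMod p) GQ (GQ ⧸ L.fixingSubgroup)))
    (c : cocycles₂ (Rep.ofAlgebraAutOnUnits L K))
    (hreal : ∀ h₁ h₂ : L.fixingSubgroup, c.1 (galRes L K h₁, galRes L K h₂) =
      unitPow p ζ (cosetCoeff L.fixingSubgroup
        ((z : GQ × GQ → Rep.ofMulAction (ZMod p) GQ (GQ ⧸ L.fixingSubgroup))
          ((h₁ : GQ), (h₂ : GQ))) ((1 : GQ) : GQ ⧸ L.fixingSubgroup)))
    (hloc : locRes₂S S (Rep.ofMulAction (ZMod p) GQ (GQ ⧸ L.fixingSubgroup))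
      (localGaloisToGlobal q)
      (continuousH2Sπ S (Rep.ofMulAction (ZMod p) GQ (GQ ⧸ L.fixingSubgroup)) z) = 0)
    (τ' : K →+* PadicAlgCl q) :
    linvAt q L τ' (H2π (Rep.ofAlgebraAutOnUnits L K) c) = 0 := by
  have h := locH2At_eq_zero_of_locRes p S L K ζ hζp hζL z c hreal hloc τ'
  show (H66.inv q (locExt q L τ')) (locH2At q L τ' (H2π (Rep.ofAlgebraAutOnUnits L K) c)) = 0
  rw [h, map_zero]

end Fermat.Agent.S55.H53
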