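/-
Program C (S55), leaf (UNR-BRIDGE) (helper53).

The Prelude's notion `IntermediateField.IsUnramifiedOutside S` (the inertia subgroups of the
valuation subrings of `ℚ̄` over the primes outside `S` fix the field) implies the value-group
notion `H88.IsUnramifiedAt l k K` of the embedding model (`SemiLocalSpec.lean`): for a prime
`l ∉ S` and a number field `K` whose image in `ℚ̄` lies in a field unramified outside `S`, every
norm of the completion `locField l τ` (`τ : K →+* PadicAlgCl l` ANY embedding) is the norm of an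
element of `ℚ_l` — hence of the completion of any subfield `k`.

Route: `H56.exists_zpow_unit` (VAL-E1) at the valuation subring cut out by
`padicEmbedding l ∘ g` gives `‖padicEmbedding l (g x)‖ = ‖l‖ ^ m`; every embedding of `K` is of
that shape (`exists_global_conj_of_algebra`); `K` is dense in its completion
(`H88.semiLocalSplitStatement_holds` + `H10.semiLocalDense`) and the norm is ultrametric.
-/
import Fermat.Agent.S55.H56.ValCore
import Fermat.Agent.S55.H88.SemiLocalSpec
import Fermat.Agent.S55.H10.SemiLocalDense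

set_option autoImplicit false

noncomputable section

namespace Fermat.Agent.S55.H53

open Fermat.Agent.S55.H88

attribute [local instance] Fermat.Agent.S55.H88.factOfPrimes

local instance isAlgebraicQbar_ub : Algebra.IsAlgebraic ℚ (AlgebraicClosure ℚ) :=
  AlgebraicClosure.isAlgebraic ℚ
local instance isAlgClosureQbar_ub : IsAlgClosure ℚ (AlgebraicClosure ℚ) :=
  ⟨inferInstance, inferInstance⟩
local instance normalQbar_ub : Normal ℚ (AlgebraicClosure ℚ) :=
  IsAlgClosure.normal ℚ (AlgebraicClosure ℚ)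

local notation "Qb" => AlgebraicClosure ℚ
local notation "GQ" => (AlgebraicClosure ℚ ≃ₐ[ℚ] AlgebraicClosure ℚ)

/-! ### The valuation subring of `ℚ̄` cut out by a conjugate of the fixed `q`-adic embedding -/

section Place

variable (q : ℕ) [Fact q.Prime]

/-- The valuation subring of `ℚ̄` cut out by the embedding `padicEmbedding q ∘ g`. -/
def conjPlace (g : GQ) : ValuationSubring Qb :=
  (padicPlace q).comap ((g : Qb ≃+* Qb) : Qb →+* Qb)

theorem mem_conjPlace_iff (g : GQ) (x : Qb) :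
    x ∈ conjPlace q g ↔ ‖padicEmbedding q (g x)‖ ≤ 1 := by
  show ‖padicEmbedding q (g x)‖₊ ≤ 1 ↔ _
  rw [← NNReal.coe_le_coe]
  rfl

theorem norm_natCast_prime_lt_one_ub : ‖((q : ℕ) : PadicAlgCl q)‖ < 1 := by
  have h : ((q : ℕ) : PadicAlgCl q) = algebraMap ℚ_[q] (PadicAlgCl q) ((q : ℕ) : ℚ_[q]) := by
    simp
  rw [h, PadicAlgCl.norm_extends q]
  exact Padic.norm_p_lt_one

theorem norm_natCast_prime_pos_ub : 0 < ‖((q : ℕ) : PadicAlgCl q)‖ := by
  rw [norm_pos_iff]
  exact_mod_cast (Fact.out : q.Prime).ne_zero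

theorem conjPlace_liesOverPrime (g : GQ) : (conjPlace q g).LiesOverPrime q := by
  show ((q : ℕ) : Qb) ∈ (conjPlace q g).nonunits
  rw [ValuationSubring.mem_nonunits_iff_or]
  right
  rw [mem_conjPlace_iff, map_inv₀, map_inv₀, norm_inv, map_natCast, map_natCast, not_le]
  exact (one_lt_inv₀ (norm_natCast_prime_pos_ub q)).2 (norm_natCast_prime_lt_one_ub q)

end Place

/-! ### Norms of the conjugates of an element of a field unramified outside `S` -/

/-- If `K₀` is unramified outside `S` and `l ∉ S`, then for every `g ∈ G_ℚ` and every nonzero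
`x ∈ K₀` the `l`-adic norm of `g x` is an integral power of `‖l‖`. -/
theorem norm_conj_eq_zpow {S : Finset Nat.Primes} {K₀ : IntermediateField ℚ Qb}
    (hK : K₀.IsUnramifiedOutside S) (l : Nat.Primes) (hl : l ∉ S) (g : GQ) {x : Qb}
    (hx : x ∈ K₀) (hx0 : x ≠ 0) :
    ∃ m : ℤ, ‖padicEmbedding (l : ℕ) (g x)‖ = ‖(((l : ℕ) : ℕ) : PadicAlgCl (l : ℕ))‖ ^ m := by
  obtain ⟨m, h1, h2⟩ := Fermat.Agent.S55.H56.exists_zpow_unit hK l hl (conjPlace (l : ℕ) g)
    (conjPlace_liesOverPrime (l : ℕ) g) hx hx0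
  refine ⟨m, ?_⟩
  rw [mem_conjPlace_iff] at h1 h2
  have hl0 : ‖(((l : ℕ) : ℕ) : PadicAlgCl (l : ℕ))‖ ^ m ≠ 0 :=
    zpow_ne_zero _ (norm_natCast_prime_pos_ub (l : ℕ)).ne'
  have hgx0 : ‖padicEmbedding (l : ℕ) (g x)‖ ≠ 0 := by
    rw [norm_ne_zero_iff]
    intro h
    have h' : padicEmbedding (l : ℕ) (g x) = padicEmbedding (l : ℕ) 0 := by rw [h, map_zero]
    have h'' := (padicEmbedding (l : ℕ)).toRingHom.injective h'
    exact hx0 (g.injective (h''.trans (map_zero g).symm))
  rw [map_div₀, map_div₀, norm_div, map_zpow₀, map_zpow₀, norm_zpow, map_natCast, map_natCast]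
    at h1 h2
  rw [div_le_one (lt_of_le_of_ne (by positivity) (Ne.symm hl0))] at h1
  rw [div_le_one (lt_of_le_of_ne (norm_nonneg _) (Ne.symm hgx0))] at h2
  exact le_antisymm h1 h2

/-! ### Every embedding is a conjugate of the fixed one -/

/-- Every embedding into `PadicAlgCl q` of a field `M` algebraic inside `ℚ̄` is
`padicEmbedding q ∘ g ∘ (M → ℚ̄)` for some `g ∈ G_ℚ`. -/
theorem exists_global_conj_of_algebra (q : ℕ) [Fact q.Prime] (M : Type) [Field M]
    [Algebra M Qb] [Algebra.IsAlgebraic M Qb] (τ : M →+* PadicAlgCl q) :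
    ∃ g : GQ, ∀ x : M, τ x = padicEmbedding q (g (algebraMap M Qb x)) := by
  obtain ⟨τ₁, hτ₁⟩ := exists_extend q (k := M) (K := Qb) τ
  have h : ((padicEmbedding q : Qb →+* PadicAlgCl q)).comp (algebraMap ℚ Qb) =
      τ₁.comp (algebraMap ℚ Qb) := Subsingleton.elim _ _
  obtain ⟨σ, hσ⟩ := exists_algEquiv_comp_eq q (k := ℚ) (K := Qb)
    (padicEmbedding q : Qb →+* PadicAlgCl q) τ₁ h
  refine ⟨σ, fun x => ?_⟩
  have h1 := RingHom.congr_fun hτ₁ x
  have h2 := RingHom.congr_fun hσ (algebraMap M Qb x)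
  exact h1.symm.trans h2

/-! ### Density: the norms of a completion are the norms of the global field -/

/-- Every nonzero element of the completion `locField q τ` of a number field has the norm of an
element of the field. -/
theorem exists_norm_eq_of_mem_locField (q : ℕ) [Fact q.Prime] (M : Type) [Field M]
    [NumberField M] (τ : M →+* PadicAlgCl q) {y : PadicAlgCl q} (hy : y ∈ locField q τ)
    (hy0 : y ≠ 0) : ∃ x : M, x ≠ 0 ∧ ‖τ x‖ = ‖y‖ := by
  obtain ⟨f, hf, -⟩ := semiLocalSplitStatement_holds q M τ y hy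
  obtain ⟨x, hx⟩ := Fermat.Agent.S55.H10.semiLocalDense q M f ‖y‖ (norm_pos_iff.2 hy0)
  have hx' : ‖y - τ x‖ < ‖y‖ := by
    have := hx τ
    rwa [hf] at this
  have hnorm : ‖τ x‖ = ‖y‖ := by
    by_contra hne
    have h1 : ‖y - τ x‖ = max ‖y‖ ‖τ x‖ := by
      rw [sub_eq_add_neg]
      have := IsUltrametricDist.norm_add_eq_max_of_norm_ne_norm (x := y) (y := -τ x)
        (by rw [norm_neg]; exact fun h => hne h.symm)
      rw [this, norm_neg]
    rw [h1] at hx'
    exact absurd hx' (not_lt.2 (le_max_left _ _))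
  refine ⟨x, ?_, hnorm⟩
  rintro rfl
  rw [map_zero, norm_zero] at hnorm
  exact hy0 (norm_eq_zero.1 hnorm.symm)

/-! ### The bridge -/

/-- **(UNR-BRIDGE), norm form.**  Let `K₀ ⊆ ℚ̄` be unramified outside `S` (Prelude), `l ∉ S`,
and `M` a number field whose image in `ℚ̄` lies in `K₀`.  Every nonzero element of a completion
`locField l τ` of `M` has norm `‖l‖ ^ m`. -/
theorem norm_locField_eq_zpow {S : Finset Nat.Primes} {K₀ : IntermediateField ℚ Qb}
    (hK : K₀.IsUnramifiedOutside S) (l : Nat.Primes) (hl : l ∉ S) (M : Type) [Field M]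
    [NumberField M] [Algebra M Qb] (hM : ∀ x : M, algebraMap M Qb x ∈ K₀)
    (τ : M →+* PadicAlgCl (l : ℕ)) {y : PadicAlgCl (l : ℕ)} (hy : y ∈ locField (l : ℕ) τ)
    (hy0 : y ≠ 0) :
    ∃ m : ℤ, ‖y‖ = ‖(((l : ℕ) : ℕ) : PadicAlgCl (l : ℕ))‖ ^ m := by
  have halg : Algebra.IsAlgebraic M Qb :=
    Algebra.IsAlgebraic.tower_top (K := ℚ) M
  obtain ⟨g, hg⟩ := exists_global_conj_of_algebra (l : ℕ) M τ
  obtain ⟨x, hx0, hx⟩ := exists_norm_eq_of_mem_locField (l : ℕ) M τ hy hy0
  have hx0' : algebraMap M Qb x ≠ 0 := fun h =>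
    hx0 ((algebraMap M Qb).injective (h.trans (map_zero _).symm))
  obtain ⟨m, hm⟩ := norm_conj_eq_zpow hK l hl g (hM x) hx0'
  exact ⟨m, by rw [← hx, hg x, hm]⟩

/-- **(UNR-BRIDGE).**  Let `K₀ ⊆ ℚ̄` be unramified outside `S` (Prelude's
`IntermediateField.IsUnramifiedOutside`), `l ∉ S`, and `K` a number field whose image in `ℚ̄` lies
in `K₀`.  Then `K / k` is unramified above `l` in the sense of `H88.IsUnramifiedAt`, for every
base field `k`. -/
theorem isUnramifiedAt_of_unramifiedOutside {S : Finset Nat.Primes}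
    {K₀ : IntermediateField ℚ Qb} (hK : K₀.IsUnramifiedOutside S) (l : Nat.Primes) (hl : l ∉ S)
    (k K : Type) [Field k] [Field K] [Algebra k K] [NumberField K] [Algebra K Qb]
    (hM : ∀ x : K, algebraMap K Qb x ∈ K₀) : IsUnramifiedAt (l : ℕ) k K := by
  intro τ x hx
  by_cases hx0 : x = 0
  · exact ⟨0, zero_mem _, by rw [hx0]⟩
  · obtain ⟨m, hm⟩ := norm_locField_eq_zpow hK l hl K hM τ hx hx0
    refine ⟨algebraMap ℚ_[(l : ℕ)] (PadicAlgCl (l : ℕ)) ((((l : ℕ) : ℕ) : ℚ_[(l : ℕ)]) ^ m),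
      IntermediateField.algebraMap_mem _ _, ?_⟩
    rw [hm, map_zpow₀, norm_zpow, map_natCast]

/-- (UNR-BRIDGE) for a subfield `K ⊆ ℚ̄` finite over `ℚ` and unramified outside `S`. -/
theorem isUnramifiedAt_of_unramifiedOutside_intermediate {S : Finset Nat.Primes}
    {K : IntermediateField ℚ Qb} (hK : K.IsUnramifiedOutside S) (l : Nat.Primes) (hl : l ∉ S)
    (k : Type) [Field k] [Algebra k K] : IsUnramifiedAt (l : ℕ) k K := by
  have := hK.1
  have : NumberField K := ⟨⟩
  exact isUnramifiedAt_of_unramifiedOutside hK l hl k K (fun x => x.2)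

/-- (UNR-BRIDGE) for a relative layer `K / L`, `L ⊆ ℚ̄`, `K : IntermediateField L ℚ̄`. -/
theorem isUnramifiedAt_of_unramifiedOutside_relative {S : Finset Nat.Primes}
    {L : IntermediateField ℚ Qb} {K : IntermediateField L Qb}
    (hK : (K.restrictScalars ℚ).IsUnramifiedOutside S) (l : Nat.Primes) (hl : l ∉ S) :
    IsUnramifiedAt (l : ℕ) L K := by
  have hfd : FiniteDimensional ℚ (K.restrictScalars ℚ) := hK.1
  have hfd' : FiniteDimensional ℚ K := hfd
  have : NumberField K := ⟨⟩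
  exact isUnramifiedAt_of_unramifiedOutside hK l hl L K (fun x => x.2)

end Fermat.Agent.S55.H53
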