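/-
Program C (S55), package C9b, input (OUT-Q) of (RECQ) (helper53).

`unitOutsideQStatement S : H33.UnitOutsideQStatement S` VERBATIM: for `K/ℚ` finite Galois inside
`ℚ̄`, unramified outside `S` in the sense of the Prelude, the classes of `S`-units of
`H²(Gal(K/ℚ), Kˣ)` have trivial local invariants at the finite places outside `S`
(C5's (L7) `H88.SDataUnitOutsideStatement ℚ K S`).

Generic form `sDataUnitOutside_of_isUnramifiedAt` for a layer `K/k` of number fields unramified
(`H88.IsUnramifiedAt`) above the primes outside `S`, and the relative form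
`sDataUnitOutside_relative` for `K : IntermediateField L ℚ̄`.

Inputs: `H53.isUnramifiedAt_of_unramifiedOutside*` (UNR-BRIDGE) and helper28's
`H28.linvAt_eq_zero_of_units` (C3: unit classes of an unramified local extension have invariant
`0`).
-/
import Fermat.Agent.S55.H53.UnrBridge
import Fermat.Agent.S55.H28.LinvFin
import Fermat.Agent.S55.H88.LayerSpec
import Fermat.Agent.S55.H33.RecQDefs

set_option autoImplicit false

noncomputable section

namespace Fermat.Agent.S55.H53

open Fermat.Agent.S55

attribute [local instance] Fermat.Agent.S55.H88.factOfPrimes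

/-- **(L7), generic form.**  If the layer `K/k` of number fields is unramified above every prime
outside `S`, then the classes of `S`-units are locally trivial outside `S`. -/
theorem sDataUnitOutside_of_isUnramifiedAt (k K : Type) [Field k] [NumberField k] [Field K]
    [NumberField K] [Algebra k K] [Normal k K] (S : Finset Nat.Primes)
    (hunr : ∀ l : Nat.Primes, l ∉ S → H88.IsUnramifiedAt (l : ℕ) k K) :
    H88.SDataUnitOutsideStatement k K S := by
  intro v hv β
  have hvS : v.1 ∉ S := fun h => hv (H88.mem_sPlaces_iff.2 h)
  exact H28.linvAt_eq_zero_of_units (v.1 : ℕ) k K (v.ext K) (hunr v.1 hvS)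
    (H88.sUnitRep S k K) (H88.sUnitIncl S k K)
    (fun a => (Additive.toMul (α := H88.sUnitGroup S K) a).2 v.1 hvS (v.ext K)) β

/-- **(L7) over `ℚ`** for a finite normal `K ⊆ ℚ̄` unramified outside `S` (Prelude). -/
theorem sDataUnitOutside_of_unramifiedOutside (S : Finset Nat.Primes)
    (K : IntermediateField ℚ (AlgebraicClosure ℚ)) [FiniteDimensional ℚ K] [Normal ℚ K]
    (hK : K.IsUnramifiedOutside S) : H88.SDataUnitOutsideStatement ℚ K S := by
  have : NumberField K := ⟨⟩
  exact sDataUnitOutside_of_isUnramifiedAt ℚ K S
    (fun l hl => isUnramifiedAt_of_unramifiedOutside_intermediate hK l hl ℚ)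

/-- **(OUT-Q)**, verbatim: helper33's input of (RECQ). -/
theorem unitOutsideQStatement (S : Finset Nat.Primes) : H33.UnitOutsideQStatement S := by
  intro K _ _ hK
  exact sDataUnitOutside_of_unramifiedOutside S K hK

/-- **(L7), relative form**: a layer `K/L` inside `ℚ̄` with `K` unramified outside `S`. -/
theorem sDataUnitOutside_relative (S : Finset Nat.Primes)
    (L : IntermediateField ℚ (AlgebraicClosure ℚ)) [NumberField L]
    (K : IntermediateField L (AlgebraicClosure ℚ)) [Normal L K]
    (hK : (K.restrictScalars ℚ).IsUnramifiedOutside S) :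
    H88.SDataUnitOutsideStatement L K S := by
  have hfd : FiniteDimensional ℚ (K.restrictScalars ℚ) := hK.1
  have hfd' : FiniteDimensional ℚ K := hfd
  have : NumberField K := ⟨⟩
  exact sDataUnitOutside_of_isUnramifiedAt L K S
    (fun l hl => isUnramifiedAt_of_unramifiedOutside_relative hK l hl)

end Fermat.Agent.S55.H53
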