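/-
Program C (S55), package C3 (local fields in the `PadicAlgCl q` model): core facts about the
extensions `F⟮z⟯` generated by a root of unity of order prime to `q`, for `LeafUnram` (helper53).

* `norm_coeff_le`, `exists_norm_le_coeff`: the MAX-NORM FORMULA `‖∑ cᵢ zⁱ‖ = max ‖cᵢ‖` in `F⟮z⟯`
  for a generator `z` whose conjugates have norm `≤ 1` and are pairwise at distance `1`;
* `isUnram_adjoin_root`: `F⟮z⟯/F` is unramified for a root of unity `z` of order `m`, `|m| = 1`;
* `unramExt_eq_adjoin_simple`, `finiteDimensional_unramExt`, `isGalois_unramExt`,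
  `isUnram_unramExt`: three of the five clauses of `LeafUnram`.
-/
import Mathlib
import Fermat.Agent.S55.H53.UnramUnique

set_option autoImplicit false

open IntermediateField Polynomial
open Fermat.Agent.S55.H66

namespace Fermat.Agent.S55.H53

variable (q : ℕ) [Fact q.Prime]

section MaxNorm

variable {F : Type} [Field F] [Algebra ℚ_[q] F] [Algebra F (PadicAlgCl q)]
  [IsScalarTower ℚ_[q] F (PadicAlgCl q)]

omit [Algebra ℚ_[q] F] [IsScalarTower ℚ_[q] F (PadicAlgCl q)] in
/-- Expansion of a conjugate of `x ∈ F⟮z⟯` in the power basis. -/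
theorem algHom_eq_sum {z : PadicAlgCl q} (hint : IsIntegral F z)
    (τ : F⟮z⟯ →ₐ[F] PadicAlgCl q) (x : F⟮z⟯) :
    τ x = ∑ i, algebraMap F (PadicAlgCl q) ((adjoin.powerBasis hint).basis.repr x i) *
      τ (adjoin.powerBasis hint).gen ^ (i : ℕ) := by
  conv_lhs => rw [← (adjoin.powerBasis hint).basis.sum_repr x]
  rw [map_sum]
  refine Finset.sum_congr rfl fun i _ => ?_
  rw [Algebra.smul_def, map_mul, AlgHom.commutes, (adjoin.powerBasis hint).basis_eq_pow, map_pow]

/-- **Max-norm formula, lower bound**: the coefficients of `x ∈ F⟮z⟯` in the power basis are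
bounded by the norm of `x`, if the conjugates of `z` have norm `≤ 1` and are pairwise at
distance `1`. -/
theorem norm_coeff_le {z : PadicAlgCl q} (hint : IsIntegral F z)
    (hz : ∀ τ : F⟮z⟯ →ₐ[F] PadicAlgCl q, ‖τ (adjoin.powerBasis hint).gen‖ ≤ 1)
    (hdist : ∀ τ τ' : F⟮z⟯ →ₐ[F] PadicAlgCl q, τ ≠ τ' →
      ‖τ (adjoin.powerBasis hint).gen - τ' (adjoin.powerBasis hint).gen‖ = 1)
    (x : F⟮z⟯) (i : Fin (adjoin.powerBasis hint).dim) :
    ‖algebraMap F (PadicAlgCl q) ((adjoin.powerBasis hint).basis.repr x i)‖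
      ≤ ‖(x : PadicAlgCl q)‖ := by
  classical
  have hF0 : CharZero F := charZero_of_injective_algebraMap (algebraMap ℚ_[q] F).injective
  have hsep : IsSeparable F z := (minpoly.irreducible hint).separable
  have hsplit : ((minpoly F z).map (algebraMap F (PadicAlgCl q))).Splits := IsAlgClosed.splits _
  let pb := adjoin.powerBasis hint
  have hdim : pb.dim = (minpoly F z).natDegree := adjoin.powerBasis_dim hint
  have hcard : Nat.card (F⟮z⟯ →ₐ[F] PadicAlgCl q) = pb.dim := by
    rw [hdim]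
    exact IntermediateField.card_algHom_adjoin_integral F hint hsep hsplit
  have hdpos : 0 < pb.dim := by
    rw [hdim]
    exact minpoly.natDegree_pos hint
  have : Finite (F⟮z⟯ →ₐ[F] PadicAlgCl q) := Nat.finite_of_card_ne_zero (by omega)
  let e : Fin pb.dim ≃ (F⟮z⟯ →ₐ[F] PadicAlgCl q) := (Finite.equivFinOfCardEq hcard).symm
  let c : Fin pb.dim → PadicAlgCl q := fun i => algebraMap F (PadicAlgCl q) (pb.basis.repr x i)
  let β : Fin pb.dim → PadicAlgCl q := fun j => e j pb.gen
  let V : Matrix (Fin pb.dim) (Fin pb.dim) (PadicAlgCl q) := Matrix.vandermonde β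
  have hVent : ∀ j i, ‖V j i‖ ≤ 1 := by
    intro j i
    show ‖β j ^ (i : ℕ)‖ ≤ 1
    rw [norm_pow]
    exact pow_le_one₀ (norm_nonneg _) (hz (e j))
  have hVdet : ‖V.det‖ = 1 := by
    show ‖(Matrix.vandermonde β).det‖ = 1
    rw [Matrix.det_vandermonde, norm_prod]
    refine Finset.prod_eq_one fun i _ => ?_
    rw [norm_prod]
    refine Finset.prod_eq_one fun j hj => ?_
    refine hdist (e j) (e i) ?_
    intro h
    have := e.injective h
    rw [Finset.mem_Ioi] at hj
    exact (ne_of_gt hj) this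
  have hVc : ∀ j, (V.mulVec c) j = e j x := by
    intro j
    rw [algHom_eq_sum q hint (e j) x]
    show ∑ i, V j i * c i = _
    refine Finset.sum_congr rfl fun i _ => ?_
    show β j ^ (i : ℕ) * c i = c i * (e j pb.gen) ^ (i : ℕ)
    rw [mul_comm]
  have hadj : V.adjugate.mulVec (V.mulVec c) = V.det • c := by
    rw [Matrix.mulVec_mulVec, Matrix.adjugate_mul, Matrix.smul_mulVec, Matrix.one_mulVec]
  have h := congrFun hadj i
  have h' : V.det * c i = ∑ j, V.adjugate i j * e j x := by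
    rw [← smul_eq_mul, ← Pi.smul_apply, ← h]
    show ∑ j, V.adjugate i j * (V.mulVec c) j = _
    refine Finset.sum_congr rfl fun j _ => ?_
    rw [hVc j]
  have h2 : ‖V.det * c i‖ ≤ ‖(x : PadicAlgCl q)‖ := by
    rw [h']
    refine IsUltrametricDist.norm_sum_le_of_forall_le_of_nonneg (norm_nonneg _) fun j _ => ?_
    rw [norm_mul, norm_algHom q F⟮z⟯ (e j) x]
    exact mul_le_of_le_one_left (norm_nonneg _) (norm_adjugate_le q V hVent i j)
  rw [norm_mul, hVdet, one_mul] at h2
  exact h2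

omit [Algebra ℚ_[q] F] [IsScalarTower ℚ_[q] F (PadicAlgCl q)] in
/-- **Max-norm formula, upper bound**: if `‖z‖ ≤ 1`, the norm of `x ∈ F⟮z⟯` is bounded by the
norm of one of its coefficients in the power basis. -/
theorem exists_norm_le_coeff {z : PadicAlgCl q} (hint : IsIntegral F z) (hz : ‖z‖ ≤ 1)
    (x : F⟮z⟯) : ∃ i₀ : Fin (adjoin.powerBasis hint).dim, ‖(x : PadicAlgCl q)‖
      ≤ ‖algebraMap F (PadicAlgCl q) ((adjoin.powerBasis hint).basis.repr x i₀)‖ := by
  classical
  set pb := adjoin.powerBasis hint with hpb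
  have hdpos : 0 < pb.dim := by
    rw [hpb, adjoin.powerBasis_dim hint]
    exact minpoly.natDegree_pos hint
  obtain ⟨i₀, -, hi₀⟩ := Finset.exists_max_image Finset.univ
    (fun i => ‖algebraMap F (PadicAlgCl q) (pb.basis.repr x i)‖) ⟨⟨0, hdpos⟩, Finset.mem_univ _⟩
  refine ⟨i₀, ?_⟩
  have h := algHom_eq_sum q hint (F⟮z⟯.val) x
  have hv : (F⟮z⟯.val) x = (x : PadicAlgCl q) := rfl
  have hg : (F⟮z⟯.val) pb.gen = z := by
    rw [hpb, adjoin.powerBasis_gen hint]
    exact AdjoinSimple.coe_gen F z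
  rw [hv, ← hpb, hg] at h
  rw [h]
  refine IsUltrametricDist.norm_sum_le_of_forall_le_of_nonneg (norm_nonneg _) fun i _ => ?_
  rw [norm_mul, norm_pow]
  calc ‖algebraMap F (PadicAlgCl q) (pb.basis.repr x i)‖ * ‖z‖ ^ (i : ℕ)
      ≤ ‖algebraMap F (PadicAlgCl q) (pb.basis.repr x i)‖ * 1 :=
        mul_le_mul_of_nonneg_left (pow_le_one₀ (norm_nonneg _) hz) (norm_nonneg _)
    _ = ‖algebraMap F (PadicAlgCl q) (pb.basis.repr x i)‖ := mul_one _
    _ ≤ _ := hi₀ i (Finset.mem_univ _)

omit [Algebra ℚ_[q] F] [IsScalarTower ℚ_[q] F (PadicAlgCl q)] in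
/-- The conjugates of a root of unity `z` are roots of unity. -/
theorem algHom_gen_pow {z : PadicAlgCl q} (hint : IsIntegral F z) {m : ℕ} (hzm : z ^ m = 1)
    (τ : F⟮z⟯ →ₐ[F] PadicAlgCl q) : τ (adjoin.powerBasis hint).gen ^ m = 1 := by
  rw [← map_pow, adjoin.powerBasis_gen hint]
  have h1 : (AdjoinSimple.gen F z) ^ m = 1 := by
    apply Subtype.ext
    rw [IntermediateField.coe_pow, AdjoinSimple.coe_gen, hzm]
    rfl
  rw [h1, map_one]

/-- `F⟮z⟯/F` is unramified for a root of unity `z` of order prime to `q`. -/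
theorem isUnram_adjoin_root {m : ℕ} (hm : ‖((m : ℕ) : PadicAlgCl q)‖ = 1) {z : PadicAlgCl q}
    (hzm : z ^ m = 1) : IsUnram q F F⟮z⟯ := by
  have hm0 : m ≠ 0 := by
    rintro rfl
    simp at hm
  have hint : IsIntegral F z := ⟨X ^ m - C 1, monic_X_pow_sub_C 1 hm0, by simp [hzm]⟩
  intro x
  have hz1 : ∀ τ : F⟮z⟯ →ₐ[F] PadicAlgCl q, ‖τ (adjoin.powerBasis hint).gen‖ ≤ 1 := fun τ =>
    (norm_eq_one_of_pow_eq q hm0 norm_one (algHom_gen_pow q hint hzm τ)).le
  have hdist : ∀ τ τ' : F⟮z⟯ →ₐ[F] PadicAlgCl q, τ ≠ τ' →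
      ‖τ (adjoin.powerBasis hint).gen - τ' (adjoin.powerBasis hint).gen‖ = 1 := by
    intro τ τ' hne
    refine norm_sub_of_pow_eq_one q hm (algHom_gen_pow q hint hzm τ)
      (algHom_gen_pow q hint hzm τ') ?_
    intro h
    exact hne ((adjoin.powerBasis hint).algHom_ext h)
  obtain ⟨i₀, hi₀⟩ := exists_norm_le_coeff q hint
    (norm_eq_one_of_pow_eq q hm0 norm_one hzm).le x
  exact ⟨(adjoin.powerBasis hint).basis.repr x i₀,
    le_antisymm hi₀ (norm_coeff_le q hint hz1 hdist x i₀)⟩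

end MaxNorm

/-! ### The extension `unramExt q F n` -/

section UnramExt

variable (F : Type) [Field F] [Algebra ℚ_[q] F] [Algebra F (PadicAlgCl q)]
  [IsScalarTower ℚ_[q] F (PadicAlgCl q)] [FiniteDimensional ℚ_[q] F]

/-- The cardinality of the residue field is a non-unit of `Ω`. -/
theorem norm_resCard_lt_one : ‖((resCard q F : ℕ) : PadicAlgCl q)‖ < 1 := by
  classical
  have hfin : Finite (IsLocalRing.ResidueField (intRing q F)) := leafResFinite q F
  have : Fintype (IsLocalRing.ResidueField (intRing q F)) := Fintype.ofFinite _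
  have h0 : ((resCard q F : ℕ) : IsLocalRing.ResidueField (intRing q F)) = 0 := by
    rw [resCard, Nat.card_eq_fintype_card]
    exact Nat.cast_card_eq_zero _
  have h1 : IsLocalRing.residue (intRing q F) ((resCard q F : ℕ) : intRing q F) = 0 := by
    rw [map_natCast]
    exact h0
  have h3 := (residue_eq_zero_iff q F _).1 h1
  have h4 : nrm q ((((resCard q F : ℕ) : intRing q F) : F))
      = ‖((resCard q F : ℕ) : PadicAlgCl q)‖ := by
    simp [nrm]
  rwa [h4] at h3

theorem one_lt_resCard_pow (n : ℕ) (hn : 0 < n) : 1 < resCard q F ^ n :=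
  Nat.one_lt_pow hn.ne' (by have := two_le_resCard q F; omega)

/-- `Q ^ n - 1` is a unit of `Ω`. -/
theorem norm_resCard_pow_sub_one (n : ℕ) (hn : 0 < n) :
    ‖((resCard q F ^ n - 1 : ℕ) : PadicAlgCl q)‖ = 1 := by
  have h1 := norm_resCard_lt_one q F
  have h2 : ‖((resCard q F ^ n : ℕ) : PadicAlgCl q)‖ < 1 := by
    rw [Nat.cast_pow, norm_pow]
    exact pow_lt_one₀ (norm_nonneg _) h1 hn.ne'
  have h3 : 1 ≤ resCard q F ^ n := (one_lt_resCard_pow q F n hn).le
  have h5 : ((resCard q F ^ n - 1 : ℕ) : PadicAlgCl q)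
      = ((resCard q F ^ n : ℕ) : PadicAlgCl q) + -1 := by
    rw [Nat.cast_sub h3]
    simp [sub_eq_add_neg]
  have h6 : ‖((resCard q F ^ n : ℕ) : PadicAlgCl q)‖ ≠ ‖(-1 : PadicAlgCl q)‖ := by
    rw [norm_neg, norm_one]
    exact ne_of_lt h2
  rw [h5, IsUltrametricDist.norm_add_eq_max_of_norm_ne_norm h6, norm_neg, norm_one]
  exact max_eq_right h2.le

/-- `Ω` contains a primitive `(Q ^ n - 1)`-th root of unity. -/
theorem exists_primitiveRoot_resCard (n : ℕ) (hn : 0 < n) :
    ∃ z : PadicAlgCl q, IsPrimitiveRoot z (resCard q F ^ n - 1) := by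
  have h := norm_resCard_pow_sub_one q F n hn
  have : NeZero (((resCard q F ^ n - 1 : ℕ)) : PadicAlgCl q) := ⟨by
    intro h0
    rw [h0, norm_zero] at h
    exact zero_ne_one h⟩
  exact HasEnoughRootsOfUnity.exists_primitiveRoot (PadicAlgCl q) _

/-- `unramExt q F n` is generated by any primitive `(Q ^ n - 1)`-th root of unity. -/
theorem unramExt_eq_adjoin_simple (n : ℕ) (hn : 0 < n) {z : PadicAlgCl q}
    (hz : IsPrimitiveRoot z (resCard q F ^ n - 1)) : unramExt q F n = F⟮z⟯ := by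
  have hm : NeZero (resCard q F ^ n - 1) := ⟨by have := one_lt_resCard_pow q F n hn; omega⟩
  apply le_antisymm
  · rw [unramExt, adjoin_le_iff]
    intro ζ hζ
    obtain ⟨i, -, hi⟩ := hz.eq_pow_of_pow_eq_one hζ
    rw [← hi]
    exact pow_mem (mem_adjoin_simple_self F z) i
  · rw [adjoin_simple_le_iff]
    exact subset_adjoin F _ hz.pow_eq_one

/-- Clause 5 of `LeafUnram`: `unramExt q F n` is unramified. -/
theorem isUnram_unramExt (n : ℕ) (hn : 0 < n) : IsUnram q F (unramExt q F n) := by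
  obtain ⟨z, hz⟩ := exists_primitiveRoot_resCard q F n hn
  rw [unramExt_eq_adjoin_simple q F n hn hz]
  exact isUnram_adjoin_root q (norm_resCard_pow_sub_one q F n hn) hz.pow_eq_one

/-- Clause 1 of `LeafUnram`: `unramExt q F n` is finite over `F`. -/
theorem finiteDimensional_unramExt (n : ℕ) (hn : 0 < n) :
    FiniteDimensional F (unramExt q F n) := by
  obtain ⟨z, hz⟩ := exists_primitiveRoot_resCard q F n hn
  have hm0 : resCard q F ^ n - 1 ≠ 0 := by have := one_lt_resCard_pow q F n hn; omega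
  have hint : IsIntegral F z :=
    ⟨X ^ (resCard q F ^ n - 1) - C 1, monic_X_pow_sub_C 1 hm0, by simp [hz.pow_eq_one]⟩
  rw [unramExt_eq_adjoin_simple q F n hn hz]
  exact adjoin.finiteDimensional hint

/-- `unramExt q F n` is the field generated by the roots of `X ^ (Q ^ n - 1) - 1`. -/
theorem unramExt_eq_adjoin_rootSet (n : ℕ) (hn : 0 < n) :
    unramExt q F n = IntermediateField.adjoin F
      ((X ^ (resCard q F ^ n - 1) - C (1 : F)).rootSet (PadicAlgCl q)) := by
  have hm0 : resCard q F ^ n - 1 ≠ 0 := by have := one_lt_resCard_pow q F n hn; omega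
  have hp : (X ^ (resCard q F ^ n - 1) - C (1 : F)) ≠ 0 := (monic_X_pow_sub_C 1 hm0).ne_zero
  rw [unramExt]
  congr 1
  ext ζ
  rw [mem_rootSet_of_ne hp]
  simp [sub_eq_zero]

/-- Clause 3 of `LeafUnram`: `unramExt q F n` is Galois over `F`. -/
theorem isGalois_unramExt (n : ℕ) (hn : 0 < n) : IsGalois F (unramExt q F n) := by
  have hF0 : CharZero F := charZero_of_injective_algebraMap (algebraMap ℚ_[q] F).injective
  have hm0 : resCard q F ^ n - 1 ≠ 0 := by have := one_lt_resCard_pow q F n hn; omega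
  have hsep : (X ^ (resCard q F ^ n - 1) - C (1 : F)).Separable :=
    separable_X_pow_sub_C 1 (by exact_mod_cast hm0) one_ne_zero
  rw [unramExt_eq_adjoin_rootSet q F n hn]
  have hsf := IntermediateField.adjoin_rootSet_isSplittingField (K := F) (L := PadicAlgCl q)
    (p := X ^ (resCard q F ^ n - 1) - C (1 : F)) (IsAlgClosed.splits _)
  exact IsGalois.of_separable_splitting_field hsep

end UnramExt

end Fermat.Agent.S55.H53
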